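import Mathlib

/-!
# GAL / HK1 : abstract Hecke data and the transfer operator on `Hom(Γ, A)`
-/

set_option autoImplicit false

namespace Fermat.Agent.GAL.HK

/-- A Hecke datum on a group `Γ`: a finite index set `ι` (the cosets `Γ \ Γ α Γ`), the permutation
of `ι` induced by right multiplication by `γ`, and the cocycle `coc γ x ∈ Γ`
(`α_x γ = coc γ x · α_{perm γ x}`). -/
structure HeckeDatum (Γ : Type*) [Group Γ] where
  ι : Type
  [fin : Fintype ι]
  perm : Γ → Equiv.Perm ι
  coc : Γ → ι → Γ
  perm_mul : ∀ γ δ x, perm (γ * δ) x = perm δ (perm γ x)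
  coc_mul : ∀ γ δ x, coc (γ * δ) x = coc γ x * coc δ (perm γ x)

attribute [instance] HeckeDatum.fin

namespace HeckeDatum

variable {Γ : Type*} [Group Γ] (D : HeckeDatum Γ)

theorem coc_one (x : D.ι) : D.coc 1 x = 1 := by
  have h1 : D.perm 1 x = x := by
    have h := D.perm_mul 1 1 x
    rw [mul_one] at h
    exact ((D.perm 1).injective h).symm
  have h := D.coc_mul 1 1 x
  rw [mul_one, h1] at h
  exact (mul_eq_left.mp h.symm)

theorem perm_one (x : D.ι) : D.perm 1 x = x := by
  have h := D.perm_mul 1 1 x
  rw [mul_one] at h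
  exact ((D.perm 1).injective h).symm

/-- The transfer (cohomological Hecke) operator on additive characters. -/
def T (A : Type*) [AddCommGroup A] : (Additive Γ →+ A) →+ (Additive Γ →+ A) where
  toFun φ :=
    { toFun := fun γ => ∑ x, φ (Additive.ofMul (D.coc (Additive.toMul γ) x))
      map_zero' := by
        simp [D.coc_one]
      map_add' := by
        intro γ δ
        simp only [toMul_add, D.coc_mul, ofMul_mul, map_add, Finset.sum_add_distrib]
        congr 1
        exact Equiv.sum_comp (D.perm (Additive.toMul γ))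
          (fun x => φ (Additive.ofMul (D.coc (Additive.toMul δ) x))) }
  map_zero' := by
    refine AddMonoidHom.ext fun γ => ?_
    simp
  map_add' := by
    intro φ ψ
    refine AddMonoidHom.ext fun γ => ?_
    simp [Finset.sum_add_distrib]

@[simp] theorem T_apply (A : Type*) [AddCommGroup A] (φ : Additive Γ →+ A) (γ : Γ) :
    D.T A φ (Additive.ofMul γ) = ∑ x, φ (Additive.ofMul (D.coc γ x)) := rfl

/-- Naturality in the coefficient group. -/
theorem T_comp {A B : Type*} [AddCommGroup A] [AddCommGroup B] (f : A →+ B)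
    (φ : Additive Γ →+ A) : D.T B (f.comp φ) = f.comp (D.T A φ) := by
  refine AddMonoidHom.ext fun γ => ?_
  obtain ⟨γ, rfl⟩ := Additive.ofMul.surjective γ
  simp

/-- `T` as a linear map. -/
def Tlin (R : Type*) [Semiring R] (A : Type*) [AddCommGroup A] [Module R A] :
    (Additive Γ →+ A) →ₗ[R] (Additive Γ →+ A) where
  toFun := D.T A
  map_add' := map_add _
  map_smul' := by
    intro c φ
    refine AddMonoidHom.ext fun γ => ?_
    obtain ⟨γ, rfl⟩ := Additive.ofMul.surjective γ
    simp [Finset.smul_sum]

@[simp] theorem Tlin_apply (R : Type*) [Semiring R] (A : Type*) [AddCommGroup A] [Module R A]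
    (φ : Additive Γ →+ A) : D.Tlin R A φ = D.T A φ := rfl

/-- The multiplicative twin of `T`. -/
def Tmul (B : Type*) [CommGroup B] : (Γ →* B) →* (Γ →* B) where
  toFun χ :=
    { toFun := fun γ => ∏ x, χ (D.coc γ x)
      map_one' := by simp [D.coc_one]
      map_mul' := by
        intro γ δ
        simp only [D.coc_mul, map_mul, Finset.prod_mul_distrib]
        congr 1
        exact Equiv.prod_comp (D.perm γ) (fun x => χ (D.coc δ x)) }
  map_one' := by
    ext γ; simp
  map_mul' := by
    intro φ ψ
    ext γ
    simp [Finset.prod_mul_distrib]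

@[simp] theorem Tmul_apply (B : Type*) [CommGroup B] (χ : Γ →* B) (γ : Γ) :
    D.Tmul B χ γ = ∏ x, χ (D.coc γ x) := rfl

/-- Compatibility of `T` and `Tmul` under an exponential `e : A → B`. -/
theorem Tmul_exp {A B : Type*} [AddCommGroup A] [CommGroup B] (e : Multiplicative A →* B)
    (φ : Additive Γ →+ A) :
    D.Tmul B (e.comp (AddMonoidHom.toMultiplicativeRight φ)) =
      e.comp (AddMonoidHom.toMultiplicativeRight (D.T A φ)) := by
  ext γ
  simp only [Tmul_apply, MonoidHom.comp_apply]
  rw [← map_prod]
  congr 1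

end HeckeDatum

end Fermat.Agent.GAL.HK
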