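import Mathlib
import Fermat.Prelude.Def_CuspForm_HeckeAlgebra
import Fermat.Agent.GAL.HK.Transfer

/-!
# GAL / HK2 : concrete Hecke data for `Gamma0 N`

`RepSystem Γ ι` : a finite system of representatives `rep x` (`x : ι`) of a Hecke double coset,
with the permutation `perm γ` and the (unique) cocycle `coc γ x : Γ` such that
`rep x * γ = coc γ x * rep (perm γ x)`.

`sysT N ℓ` (`ℓ ∤ N`, `ι = OnePoint (ZMod ℓ)`, `rep = heckeRep ℓ`) and
`sysU N q` (`q ∣ N`, `ι = ZMod q`, `rep x = heckeMatrix q x.val`).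
-/

set_option autoImplicit false

open Matrix.SpecialLinearGroup
open scoped MatrixGroups
open P2MW.S_ModularForm_heckeT_slash_eq_self_of_mem_Gamma0.ModularForm.HeckeSlashInvariance

namespace Fermat.Agent.GAL.HK

/-- A system of representatives of a Hecke operator for `Γ ≤ SL(2,ℤ)`. -/
structure RepSystem (Γ : Subgroup SL(2, ℤ)) (ι : Type) where
  rep : ι → GL (Fin 2) ℝ
  perm : Γ → Equiv.Perm ι
  perm_mul : ∀ (γ δ : Γ) (x : ι), perm (γ * δ) x = perm δ (perm γ x)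
  exists_coc : ∀ (γ : Γ) (x : ι), ∃ γ' : Γ,
    rep x * mapGL ℝ (γ : SL(2, ℤ)) = mapGL ℝ (γ' : SL(2, ℤ)) * rep (perm γ x)

namespace RepSystem

variable {Γ : Subgroup SL(2, ℤ)} {ι : Type} (R : RepSystem Γ ι)

/-- the cocycle -/
noncomputable def coc (γ : Γ) (x : ι) : Γ := (R.exists_coc γ x).choose

theorem coc_spec (γ : Γ) (x : ι) :
    R.rep x * mapGL ℝ (γ : SL(2, ℤ)) = mapGL ℝ (R.coc γ x : SL(2, ℤ)) * R.rep (R.perm γ x) :=
  (R.exists_coc γ x).choose_spec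

theorem coc_unique {γ : Γ} {x : ι} {γ' : Γ}
    (h : R.rep x * mapGL ℝ (γ : SL(2, ℤ)) = mapGL ℝ (γ' : SL(2, ℤ)) * R.rep (R.perm γ x)) :
    γ' = R.coc γ x := by
  have h2 := R.coc_spec γ x
  rw [h] at h2
  have h3 := mul_right_cancel h2
  exact Subtype.ext (mapGL_injective (R := ℤ) (S := ℝ) h3)

theorem coc_mul (γ δ : Γ) (x : ι) :
    R.coc (γ * δ) x = R.coc γ x * R.coc δ (R.perm γ x) := by
  symm
  apply R.coc_unique
  rw [R.perm_mul, Subgroup.coe_mul, Subgroup.coe_mul, map_mul, map_mul, ← mul_assoc, R.coc_spec γ x,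
    mul_assoc, R.coc_spec δ, mul_assoc]

theorem perm_one (x : ι) : R.perm 1 x = x := by
  have h := R.perm_mul 1 1 x
  rw [mul_one] at h
  exact ((R.perm 1).injective h).symm

theorem coc_one (x : ι) : R.coc 1 x = 1 := by
  symm
  apply R.coc_unique
  rw [R.perm_one]
  simp

theorem perm_inv (γ : Γ) (x : ι) : R.perm γ⁻¹ (R.perm γ x) = x := by
  rw [← R.perm_mul, mul_inv_cancel, R.perm_one]

theorem perm_inv' (γ : Γ) (x : ι) : R.perm γ (R.perm γ⁻¹ x) = x := by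
  rw [← R.perm_mul, inv_mul_cancel, R.perm_one]

theorem coc_inv (γ : Γ) (x : ι) : R.coc γ⁻¹ (R.perm γ x) = (R.coc γ x)⁻¹ := by
  have h := R.coc_mul γ γ⁻¹ x
  rw [mul_inv_cancel, R.coc_one] at h
  exact (inv_eq_of_mul_eq_one_right h.symm).symm

/-- action on the upper half plane : `rep x • (γ • z) = coc γ x • (rep (perm γ x) • z)`. -/
theorem rep_smul_smul (γ : Γ) (x : ι) (z : UpperHalfPlane) :
    R.rep x • ((mapGL ℝ (γ : SL(2, ℤ))) • z) =
      (mapGL ℝ (R.coc γ x : SL(2, ℤ))) • (R.rep (R.perm γ x) • z) := by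
  rw [← mul_smul, ← mul_smul, R.coc_spec]

/-- the associated abstract Hecke datum -/
noncomputable def toDatum [Fintype ι] : HeckeDatum Γ where
  ι := ι
  perm := R.perm
  coc := R.coc
  perm_mul := R.perm_mul
  coc_mul := R.coc_mul

end RepSystem

theorem mem_Gamma0_iff_dvd' {N : ℕ} (g : SL(2, ℤ)) :
    g ∈ CongruenceSubgroup.Gamma0 N ↔ (N : ℤ) ∣ g 1 0 := by
  rw [CongruenceSubgroup.Gamma0_mem, ZMod.intCast_zmod_eq_zero_iff_dvd]

theorem redMatrix_mul (p : ℕ) [Fact p.Prime] (g h : SL(2, ℤ)) :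
    redMatrix p (g * h) = redMatrix p h * redMatrix p g := by
  ext i j
  fin_cases i <;> fin_cases j <;>
    simp [Matrix.mul_apply, Fin.sum_univ_two, redMatrix] <;> ring

/-- The representatives of `T_ℓ`, `ℓ ∤ N`. -/
noncomputable def sysT (N : ℕ) {ℓ : ℕ} (hℓ : ℓ.Prime) (hℓN : ¬ ℓ ∣ N) :
    RepSystem (CongruenceSubgroup.Gamma0 N) (OnePoint (ZMod ℓ)) :=
  haveI : Fact ℓ.Prime := ⟨hℓ⟩
  { rep := heckeRep ℓ
    perm := fun γ => MulAction.toPerm (redMatrix ℓ (γ : SL(2, ℤ)))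
    perm_mul := fun γ δ x => by
      simp only [MulAction.toPerm_apply, Subgroup.coe_mul, redMatrix_mul, mul_smul]
    exists_coc := fun γ x => by
      obtain ⟨g', hg', hmul⟩ := heckeRep_mul hℓN (γ : SL(2, ℤ)) ((mem_Gamma0_iff_dvd' _).mp γ.2) x
      exact ⟨⟨g', (mem_Gamma0_iff_dvd' g').mpr hg'⟩, hmul⟩ }

theorem Gamma0_cast_eq_zero {N q : ℕ} (hqN : q ∣ N) (γ : CongruenceSubgroup.Gamma0 N) :
    (((γ : SL(2, ℤ)) 1 0 : ℤ) : ZMod q) = 0 :=
  (ZMod.intCast_zmod_eq_zero_iff_dvd _ _).mpr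
    ((Int.natCast_dvd_natCast.mpr hqN).trans ((mem_Gamma0_iff_dvd' _).mp γ.2))

/-- The representatives of `U_q`, `q ∣ N`. -/
noncomputable def sysU (N : ℕ) {q : ℕ} [NeZero q] (hqN : q ∣ N) :
    RepSystem (CongruenceSubgroup.Gamma0 N) (ZMod q) :=
  { rep := fun x => ModularForm.heckeMatrix q x.val
    perm := fun γ => affinePerm (γ : SL(2, ℤ)) (Gamma0_cast_eq_zero hqN γ)
    perm_mul := fun γ δ x => by
      have hγ := Gamma0_cast_eq_zero hqN γ
      have hδ := Gamma0_cast_eq_zero hqN δ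
      simp only [affinePerm_apply, Subgroup.coe_mul, Matrix.SpecialLinearGroup.coe_mul,
        Matrix.mul_apply, Fin.sum_univ_two]
      push_cast
      rw [hγ]
      have h1 := unit_of_apply_one_zero_eq_zero (γ : SL(2, ℤ)) hγ
      linear_combination
        ((((δ : SL(2, ℤ)) 1 1 : ℤ) : ZMod q) * (((δ : SL(2, ℤ)) 0 1 : ℤ) : ZMod q)) * h1
    exists_coc := fun γ x => by
      have hN : (N : ℤ) ∣ (γ : SL(2, ℤ)) 1 0 := (mem_Gamma0_iff_dvd' _).mp γ.2
      have hc : (q : ℤ) ∣ (γ : SL(2, ℤ)) 1 0 := (Int.natCast_dvd_natCast.mpr hqN).trans hN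
      obtain ⟨g', hg', hmul⟩ := heckeMatrix_mul_of_dvd (γ : SL(2, ℤ)) hc x
      exact ⟨⟨g', (mem_Gamma0_iff_dvd' g').mpr (hg' ▸ Dvd.dvd.mul_left hN _)⟩, hmul⟩ }

end Fermat.Agent.GAL.HK
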