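import Fermat.Agent.GAL.HK.Transfer
import Fermat.Agent.GAL.HK.Datum
import Fermat.Prelude.Def_CuspForm_HeckeAlgebra

/-!
# GAL / HK2 : the concrete Hecke data `datumT N ℓ` (`ℓ ∤ N`) and `datumU N q` (`q ∣ N`) on `Γ₀(N)`
-/

set_option autoImplicit false

open Matrix.SpecialLinearGroup CongruenceSubgroup
open scoped MatrixGroups
open P2MW.S_ModularForm_heckeT_slash_eq_self_of_mem_Gamma0.ModularForm.HeckeSlashInvariance

namespace Fermat.Agent.GAL.HK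

variable (N : ℕ)

/-- Existence of the Hecke datum for `T_ℓ`, with its defining property. -/
theorem exists_datumT {ℓ : ℕ} (hℓ : ℓ.Prime) (hℓN : ¬ ℓ ∣ N) :
    ∃ D : HeckeDatum (Gamma0 N), ∃ e : D.ι ≃ OnePoint (ZMod ℓ),
      ∀ (γ : Gamma0 N) (x : D.ι),
        heckeRep ℓ (e x) * mapGL ℝ (γ : SL(2, ℤ)) =
          mapGL ℝ ((D.coc γ x : Gamma0 N) : SL(2, ℤ)) * heckeRep ℓ (e (D.perm γ x)) := by
  have : NeZero ℓ := ⟨hℓ.ne_zero⟩
  exact ⟨(sysT N hℓ hℓN).toDatum, Equiv.refl _, fun γ x => (sysT N hℓ hℓN).coc_spec γ x⟩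

/-- Existence of the Hecke datum for `U_q`, with its defining property. -/
theorem exists_datumU {q : ℕ} (hq : q.Prime) (hqN : q ∣ N) :
    ∃ D : HeckeDatum (Gamma0 N), ∃ e : D.ι ≃ ZMod q,
      ∀ (γ : Gamma0 N) (x : D.ι),
        ModularForm.heckeMatrix q (e x).val * mapGL ℝ (γ : SL(2, ℤ)) =
          mapGL ℝ ((D.coc γ x : Gamma0 N) : SL(2, ℤ)) *
            ModularForm.heckeMatrix q (e (D.perm γ x)).val := by
  have : NeZero q := ⟨hq.ne_zero⟩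
  exact ⟨(sysU N hqN).toDatum, Equiv.refl _, fun γ x => (sysU N hqN).coc_spec γ x⟩

/-- The Hecke datum of `T_ℓ` on `Γ₀(N)`. -/
noncomputable def datumT {ℓ : ℕ} (hℓ : ℓ.Prime) (hℓN : ¬ ℓ ∣ N) : HeckeDatum (Gamma0 N) :=
  (exists_datumT N hℓ hℓN).choose

noncomputable def datumT_equiv {ℓ : ℕ} (hℓ : ℓ.Prime) (hℓN : ¬ ℓ ∣ N) :
    (datumT N hℓ hℓN).ι ≃ OnePoint (ZMod ℓ) :=
  (exists_datumT N hℓ hℓN).choose_spec.choose

/-- coset representatives of `T_ℓ`, indexed by the index set of the datum. -/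
noncomputable def repT {ℓ : ℕ} (hℓ : ℓ.Prime) (hℓN : ¬ ℓ ∣ N) (x : (datumT N hℓ hℓN).ι) :
    GL (Fin 2) ℝ :=
  heckeRep ℓ (datumT_equiv N hℓ hℓN x)

theorem repT_mul {ℓ : ℕ} (hℓ : ℓ.Prime) (hℓN : ¬ ℓ ∣ N) (γ : Gamma0 N)
    (x : (datumT N hℓ hℓN).ι) :
    repT N hℓ hℓN x * mapGL ℝ (γ : SL(2, ℤ)) =
      mapGL ℝ (((datumT N hℓ hℓN).coc γ x : Gamma0 N) : SL(2, ℤ)) *
        repT N hℓ hℓN ((datumT N hℓ hℓN).perm γ x) :=
  (exists_datumT N hℓ hℓN).choose_spec.choose_spec γ x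

/-- The Hecke datum of `U_q` on `Γ₀(N)`. -/
noncomputable def datumU {q : ℕ} (hq : q.Prime) (hqN : q ∣ N) : HeckeDatum (Gamma0 N) :=
  (exists_datumU N hq hqN).choose

noncomputable def datumU_equiv {q : ℕ} (hq : q.Prime) (hqN : q ∣ N) :
    (datumU N hq hqN).ι ≃ ZMod q :=
  (exists_datumU N hq hqN).choose_spec.choose

noncomputable def repU {q : ℕ} (hq : q.Prime) (hqN : q ∣ N) (x : (datumU N hq hqN).ι) :
    GL (Fin 2) ℝ :=
  ModularForm.heckeMatrix q (datumU_equiv N hq hqN x).val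

theorem repU_mul {q : ℕ} (hq : q.Prime) (hqN : q ∣ N) (γ : Gamma0 N)
    (x : (datumU N hq hqN).ι) :
    repU N hq hqN x * mapGL ℝ (γ : SL(2, ℤ)) =
      mapGL ℝ (((datumU N hq hqN).coc γ x : Gamma0 N) : SL(2, ℤ)) *
        repU N hq hqN ((datumU N hq hqN).perm γ x) :=
  (exists_datumU N hq hqN).choose_spec.choose_spec γ x

/-- `T_ℓ f = ∑_x f ∣[k] repT x`. -/
theorem heckeT_eq_sum_repT {ℓ : ℕ} (hℓ : ℓ.Prime) (hℓN : ¬ ℓ ∣ N) (k : ℤ)
    (f : UpperHalfPlane → ℂ) :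
    ModularForm.heckeT k ℓ f = ∑ x, SlashAction.map k (repT N hℓ hℓN x) f := by
  have : NeZero ℓ := ⟨hℓ.ne_zero⟩
  rw [heckeT_eq_sum_onePoint]
  exact (Equiv.sum_comp (datumT_equiv N hℓ hℓN) fun y => SlashAction.map k (heckeRep ℓ y) f).symm

/-- `U_q f = ∑_x f ∣[k] repU x`. -/
theorem heckeU_eq_sum_repU {q : ℕ} (hq : q.Prime) (hqN : q ∣ N) (k : ℤ)
    (f : UpperHalfPlane → ℂ) :
    ModularForm.heckeU k q f = ∑ x, SlashAction.map k (repU N hq hqN x) f := by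
  have : NeZero q := ⟨hq.ne_zero⟩
  rw [heckeU_eq_sum_zmod]
  exact (Equiv.sum_comp (datumU_equiv N hq hqN)
    fun y => SlashAction.map k (ModularForm.heckeMatrix q y.val) f).symm

/-- The representatives are integral upper triangular of positive determinant. -/
theorem repT_spec {ℓ : ℕ} (hℓ : ℓ.Prime) (hℓN : ¬ ℓ ∣ N) (x : (datumT N hℓ hℓN).ι) :
    ∃ a b d : ℕ, a * d = ℓ ∧
      ((repT N hℓ hℓN x : GL (Fin 2) ℝ) : Matrix (Fin 2) (Fin 2) ℝ) = !![(a : ℝ), (b : ℝ); 0, (d : ℝ)] := by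
  unfold repT
  generalize datumT_equiv N hℓ hℓN x = y
  induction y using OnePoint.rec with
  | infty =>
    refine ⟨ℓ, 0, 1, by simp, ?_⟩
    rw [heckeRep_infty, ModularForm.val_heckeDiagMatrix hℓ.ne_zero]
    simp
  | coe j =>
    refine ⟨1, j.val, ℓ, by simp, ?_⟩
    rw [heckeRep_coe, ModularForm.val_heckeMatrix hℓ.ne_zero]
    simp

theorem repU_spec {q : ℕ} (hq : q.Prime) (hqN : q ∣ N) (x : (datumU N hq hqN).ι) :
    ∃ b : ℕ,
      ((repU N hq hqN x : GL (Fin 2) ℝ) : Matrix (Fin 2) (Fin 2) ℝ) = !![(1 : ℝ), (b : ℝ); 0, (q : ℝ)] := by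
  refine ⟨(datumU_equiv N hq hqN x).val, ?_⟩
  unfold repU
  rw [ModularForm.val_heckeMatrix hq.ne_zero]

/-- the cohomological Hecke operators -/
noncomputable def cohT {ℓ : ℕ} (hℓ : ℓ.Prime) (hℓN : ¬ ℓ ∣ N) (A : Type*) [AddCommGroup A] :
    (Additive (Gamma0 N) →+ A) →+ (Additive (Gamma0 N) →+ A) :=
  (datumT N hℓ hℓN).T A

noncomputable def cohU {q : ℕ} (hq : q.Prime) (hqN : q ∣ N) (A : Type*) [AddCommGroup A] :
    (Additive (Gamma0 N) →+ A) →+ (Additive (Gamma0 N) →+ A) :=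
  (datumU N hq hqN).T A

end Fermat.Agent.GAL.HK
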