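import Mathlib
import Fermat.Prelude.Def_CuspForm_HeckeAlgebra
import Fermat.Agent.GAL.HK.Data
import Fermat.Agent.S21.PeriodMap

/-!
# GAL / HK4 : the period map intertwines `T_ℓ`, `U_q` with the cohomological Hecke operators
-/

set_option autoImplicit false

open UpperHalfPlane Filter Topology Function CongruenceSubgroup ModularCurve ModularCurve.Period
open Matrix.SpecialLinearGroup
open scoped Real Manifold MatrixGroups ModularForm
open P2MW.S_ModularForm_heckeT_slash_eq_self_of_mem_Gamma0.ModularForm.HeckeSlashInvariance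

namespace Fermat.Agent.GAL.HK

/-- weight 2 slash for a matrix of positive determinant -/
theorem slash_two_apply_of_det_pos (f : ℍ → ℂ) {α : GL (Fin 2) ℝ} (hα : 0 < α.val.det) (z : ℍ) :
    (f ∣[(2 : ℤ)] α) z = f (α • z) * ((α.val.det : ℂ) / denom α z ^ 2) := by
  rw [ModularForm.slash_apply]
  have hσ : σ α = .refl ℝ ℂ := by
    rw [σ, if_pos (by simpa using hα)]
  rw [hσ]
  simp [zpow_neg, div_eq_mul_inv, mul_assoc]
  exact Or.inl hα.le

/-- Chain rule for the Möbius action of `GL(2,ℝ)⁺`. -/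
theorem hasDerivAt_comp_smul_GL {F f : ℍ → ℂ}
    (hF : ∀ τ : ℍ, HasDerivAt (F ∘ ofComplex) (f τ) ↑τ)
    {α : GL (Fin 2) ℝ} (hα : 0 < α.val.det) (τ : ℍ) :
    HasDerivAt ((fun w : ℍ => F (α • w)) ∘ ofComplex) ((f ∣[(2 : ℤ)] α) τ) ↑τ := by
  have h1 := (hasStrictDerivAt_smul hα τ).hasDerivAt
  have h2 : HasDerivAt (F ∘ ofComplex) (f (α • τ)) (↑(α • ofComplex (τ : ℂ))) := by
    rw [ofComplex_apply]; exact hF (α • τ)
  have h3 := h2.comp (τ : ℂ) h1
  rw [← slash_two_apply_of_det_pos f hα τ] at h3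
  refine h3.congr_of_eventuallyEq ?_
  filter_upwards with w
  simp [Function.comp_apply]

variable {N : ℕ} [NeZero N]

/-- **HK4, abstract form**: if `g = ∑_x f ∣[2] α_x` for the representatives `α` of a Hecke datum
`D`, then `periodMap g = D.T (periodMap f)`. -/
theorem periodMap_of_datum (D : HeckeDatum (Gamma0 N)) (α : D.ι → GL (Fin 2) ℝ)
    (hα : ∀ (γ : Gamma0 N) (x : D.ι), α x * mapGL ℝ (γ : SL(2, ℤ)) =
      mapGL ℝ ((D.coc γ x : Gamma0 N) : SL(2, ℤ)) * α (D.perm γ x))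
    (hdet : ∀ x, 0 < (α x).val.det) (f g : CuspForm (Gamma0 N) 2)
    (hg : ⇑g = ∑ x, ⇑f ∣[(2 : ℤ)] α x) :
    periodMap N g = D.T ℂ (periodMap N f) := by
  refine AddMonoidHom.ext fun γ => ?_
  obtain ⟨γ, rfl⟩ := Additive.ofMul.surjective γ
  rw [HeckeDatum.T_apply]
  obtain ⟨F, hF⟩ := Fermat.Agent.S21.exists_hasEquivariantPrimitive N f
  obtain ⟨G, hG⟩ := Fermat.Agent.S21.exists_hasEquivariantPrimitive N g
  set FT : ℍ → ℂ := fun z => ∑ x, F (α x • z) with hFT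
  have hFTd : ∀ τ : ℍ, HasDerivAt (FT ∘ ofComplex) (g τ) ↑τ := by
    intro τ
    have h1 : HasDerivAt (fun w : ℂ => ∑ x, ((fun w : ℍ => F (α x • w)) ∘ ofComplex) w)
        (∑ x, (⇑f ∣[(2 : ℤ)] α x) τ) ↑τ :=
      HasDerivAt.fun_sum fun x _ => hasDerivAt_comp_smul_GL hF.1 (hdet x) τ
    have h2 : g τ = ∑ x, (⇑f ∣[(2 : ℤ)] α x) τ := by
      rw [hg, Finset.sum_apply]
    rw [h2]
    exact h1
  rw [Fermat.Agent.S21.periodMap_apply_of_hasEquivariantPrimitive hG γ I]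
  have h3 := Fermat.Agent.S21.sub_eq_sub_of_hasDerivAt hG.1 hFTd ((γ : SL(2, ℤ)) • I) I
  have h4 : G ((γ : SL(2, ℤ)) • I) - G I = FT ((γ : SL(2, ℤ)) • I) - FT I := by
    linear_combination h3
  rw [h4, hFT]
  simp only
  rw [← Equiv.sum_comp (D.perm γ) (fun x => F (α x • I)), ← Finset.sum_sub_distrib]
  refine Finset.sum_congr rfl fun x _ => ?_
  rw [Fermat.Agent.S21.periodMap_apply_of_hasEquivariantPrimitive hF (D.coc γ x)
    (α (D.perm γ x) • I)]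
  congr 2
  show α x • ((mapGL ℝ (γ : SL(2, ℤ))) • I) =
      (mapGL ℝ ((D.coc γ x : Gamma0 N) : SL(2, ℤ))) • (α (D.perm γ x) • I)
  rw [← mul_smul, ← mul_smul, hα]

omit [NeZero N] in
theorem det_repT_pos {ℓ : ℕ} (hℓ : ℓ.Prime) (hℓN : ¬ ℓ ∣ N) (x : (datumT N hℓ hℓN).ι) :
    0 < (repT N hℓ hℓN x).val.det := by
  obtain ⟨a, b, d, had, h⟩ := repT_spec N hℓ hℓN x
  rw [h, Matrix.det_fin_two_of]
  have : (0 : ℝ) < (a : ℝ) * (d : ℝ) := by
    have := hℓ.pos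
    rw [← had] at this
    exact_mod_cast this
  simpa using this

omit [NeZero N] in
theorem det_repU_pos {q : ℕ} (hq : q.Prime) (hqN : q ∣ N) (x : (datumU N hq hqN).ι) :
    0 < (repU N hq hqN x).val.det := by
  obtain ⟨b, h⟩ := repU_spec N hq hqN x
  rw [h, Matrix.det_fin_two_of]
  have : (0 : ℝ) < (q : ℝ) := by exact_mod_cast hq.pos
  simpa using this

/-- **HK4 for `T_ℓ`.** -/
theorem periodMap_heckeTLin {ℓ : ℕ} (hℓ : ℓ.Prime) (hℓN : ¬ ℓ ∣ N) (f : CuspForm (Gamma0 N) 2) :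
    periodMap N (CuspForm.heckeTLin 2 hℓ hℓN f) = cohT N hℓ hℓN ℂ (periodMap N f) := by
  refine periodMap_of_datum (datumT N hℓ hℓN) (repT N hℓ hℓN) (repT_mul N hℓ hℓN)
    (det_repT_pos hℓ hℓN) f _ ?_
  rw [CuspForm.coe_heckeTLin_apply]
  exact heckeT_eq_sum_repT N hℓ hℓN 2 f

/-- **HK4 for `U_q`.** -/
theorem periodMap_heckeULin {q : ℕ} (hq : q.Prime) (hqN : q ∣ N) (f : CuspForm (Gamma0 N) 2) :
    periodMap N (CuspForm.heckeULin 2 hqN f) = cohU N hq hqN ℂ (periodMap N f) := by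
  refine periodMap_of_datum (datumU N hq hqN) (repU N hq hqN) (repU_mul N hq hqN)
    (det_repU_pos hq hqN) f _ ?_
  rw [CuspForm.coe_heckeULin_apply]
  exact heckeU_eq_sum_repU N hq hqN 2 f

end Fermat.Agent.GAL.HK
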