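import Fermat.Agent.GAL.HK.Bridge
import Fermat.Agent.GAL.HK.Period
import Fermat.Agent.S21.Injective
import Fermat.Agent.S21.Parabolic
import Fermat.Agent.S49.QC
import Fermat.Prelude.Def_FLTPrelim_Modularity

/-!
# GAL / HK (P) : the period homomorphism of a normalized eigenform `g` of level `N`, at any level
`M` divisible by `N`, is a non-zero parabolic eigenvector of all `heckeCoh M ℓ`, `ℓ ∤ M`.
-/

set_option autoImplicit false

open UpperHalfPlane CongruenceSubgroup ModularCurve ModularCurve.Period ModularFormClass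
open Matrix.SpecialLinearGroup
open scoped MatrixGroups ModularForm

namespace Fermat.Agent.GAL.HK

theorem Gamma0_le_of_dvd {N M : ℕ} (h : N ∣ M) : Gamma0 M ≤ Gamma0 N := by
  intro γ hγ
  rw [Gamma0_mem] at hγ ⊢
  rw [ZMod.intCast_zmod_eq_zero_iff_dvd] at hγ ⊢
  exact (Int.natCast_dvd_natCast.2 h).trans hγ

/-- a cusp form of level `N`, seen at level `M`, `N ∣ M`. -/
noncomputable def levelUp {N M : ℕ} (h : N ∣ M) {k : ℤ} (g : CuspForm (Gamma0 N) k) :
    CuspForm (Gamma0 M) k where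
  toFun := g
  slash_action_eq' γ hγ :=
    SlashInvariantFormClass.slash_action_eq g γ (Subgroup.map_mono (Gamma0_le_of_dvd h) hγ)
  holo' := CuspFormClass.holo g
  zero_at_cusps' hc :=
    CuspFormClass.zero_at_cusps g (hc.mono (Subgroup.map_mono (Gamma0_le_of_dvd h)))

@[simp] theorem coe_levelUp {N M : ℕ} (h : N ∣ M) {k : ℤ} (g : CuspForm (Gamma0 N) k) :
    ⇑(levelUp h g) = ⇑g := rfl

/-- The Hecke relation for the coefficients of a normalized eigenform. -/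
theorem qCoeff_mul_prime {N : ℕ} {g : CuspForm (Gamma0 N) 2} (hg : g.IsNormalizedEigenform)
    {ℓ : ℕ} (hℓ : ℓ.Prime) (hℓN : ¬ ℓ ∣ N) (n : ℕ) :
    qCoeff g (n * ℓ) + (if ℓ ∣ n then (ℓ : ℂ) * qCoeff g (n / ℓ) else 0) =
      qCoeff g ℓ * qCoeff g n := by
  rcases Nat.eq_zero_or_pos n with rfl | hn
  · simp [S49.qc_at_zero g]
  obtain ⟨r, m, hm, rfl⟩ := Nat.exists_eq_pow_mul_and_not_dvd hn.ne' ℓ hℓ.ne_one
  have hcop : ∀ k : ℕ, (ℓ ^ k).Coprime m := fun k =>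
    Nat.Coprime.pow_left k ((Nat.Prime.coprime_iff_not_dvd hℓ).2 hm)
  cases r with
  | zero =>
    have h1 : ¬ ℓ ∣ ℓ ^ 0 * m := by simpa using hm
    rw [if_neg h1, add_zero, pow_zero, one_mul, mul_comm m ℓ]
    have := hg.qCoeff_mul_of_coprime ℓ m (by simpa using hcop 1)
    exact this
  | succ s =>
    have h1 : ℓ ∣ ℓ ^ (s + 1) * m := Dvd.dvd.mul_right (dvd_pow_self ℓ (Nat.succ_ne_zero s)) m
    have h2 : ℓ ^ (s + 1) * m * ℓ = ℓ ^ (s + 2) * m := by ring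
    have h3 : ℓ ^ (s + 1) * m / ℓ = ℓ ^ s * m := by
      rw [pow_succ, mul_assoc, mul_comm ℓ m, ← mul_assoc]
      exact Nat.mul_div_cancel _ hℓ.pos
    rw [if_pos h1, h2, h3, hg.qCoeff_mul_of_coprime _ _ (hcop (s + 2)),
      hg.qCoeff_mul_of_coprime _ _ (hcop (s + 1)), hg.qCoeff_mul_of_coprime _ _ (hcop s),
      hg.qCoeff_prime_pow_of_not_dvd ℓ s hℓ hℓN]
    ring

theorem heckeTLin_levelUp {N M : ℕ} (h : N ∣ M) {g : CuspForm (Gamma0 N) 2}
    (hg : g.IsNormalizedEigenform) {ℓ : ℕ} (hℓ : ℓ.Prime) (hℓM : ¬ ℓ ∣ M) :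
    CuspForm.heckeTLin 2 hℓ hℓM (levelUp h g) = qCoeff g ℓ • levelUp h g := by
  rw [← sub_eq_zero]
  apply S49.qc_ext
  intro n
  have h1 : qCoeff (⇑(CuspForm.heckeTLin 2 hℓ hℓM (levelUp h g) - qCoeff g ℓ • levelUp h g)) n =
      S49.qcLin M 2 n (CuspForm.heckeTLin 2 hℓ hℓM (levelUp h g) - qCoeff g ℓ • levelUp h g) := rfl
  rw [h1, map_sub, map_smul, S49.qcLin_apply, S49.qcLin_apply, S49.qc_heckeT, coe_levelUp,
    smul_eq_mul, sub_eq_zero, ← qCoeff_mul_prime hg hℓ (fun h' => hℓM (h'.trans h)) n]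
  norm_num

/-- **(P)** -/
theorem exists_period_eigen {N M : ℕ} [NeZero M] (hNM : N ∣ M) {g : CuspForm (Gamma0 N) 2}
    (hg : g.IsNormalizedEigenform) :
    ∃ P : Additive (Gamma0 M) →+ ℂ, IsParabolicHom (Gamma0 M) P ∧ P ≠ 0 ∧
      ∀ ℓ : ℕ, ℓ.Prime → ¬ ℓ ∣ M → GAL.heckeCoh M ℓ P = qCoeff g ℓ • P := by
  refine ⟨periodMap M (levelUp hNM g), S21.periodMap_mem_parabolicHoms _, fun h0 => ?_,
    fun ℓ hℓ hℓM => ?_⟩
  · have h1 : levelUp hNM g = 0 :=
      (S21.eq_zero_of_periodMap_add_charInvolution M (levelUp hNM g) 0 (by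
        rw [h0, zero_add]
        have : periodMap M (0 : CuspForm (Gamma0 M) 2) = 0 := by
          have := S21.periodMap_smul (N := M) 0 (0 : CuspForm (Gamma0 M) 2)
          simpa using this
        rw [this, map_zero])).1
    have h2 : qCoeff g 1 = 0 := by
      rw [← coe_levelUp hNM g, h1]
      have := S49.qc_smul (N := M) (k := 2) 0 0 1
      simpa using this
    rw [hg.qCoeff_one] at h2
    exact one_ne_zero h2
  · rw [heckeCoh_eq_cohT M hℓ hℓM, ← periodMap_heckeTLin, heckeTLin_levelUp hNM hg hℓ hℓM,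
      S21.periodMap_smul]

end Fermat.Agent.GAL.HK
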