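import Fermat.Agent.GAL.HK.Transfer

/-!
# GAL / HK1b : the cycle lemma for the transfer operator
-/

set_option autoImplicit false

namespace Fermat.Agent.GAL.HK

namespace HeckeDatum

variable {Γ : Type*} [Group Γ] (D : HeckeDatum Γ)

theorem perm_pow (γ : Γ) (m : ℕ) (x : D.ι) : D.perm (γ ^ m) x = (D.perm γ ^ m) x := by
  induction m generalizing x with
  | zero => simp [D.perm_one]
  | succ m ih =>
    rw [pow_succ, D.perm_mul, ih, pow_succ', Equiv.Perm.mul_apply]

/-- **Cycle lemma.**  If for all `x` and all `m ≥ 1` with `perm γ ^ m x = x` the element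
`coc (γ^m) x` is killed by `φ`, then `T φ` kills `γ`. -/
theorem T_apply_eq_zero {A : Type*} [AddCommGroup A] (φ : Additive Γ →+ A) (γ : Γ)
    (h : ∀ (x : D.ι) (m : ℕ), 0 < m → (D.perm γ ^ m) x = x →
      φ (Additive.ofMul (D.coc (γ ^ m) x)) = 0) :
    D.T A φ (Additive.ofMul γ) = 0 := by
  classical
  set σ := D.perm γ with hσ
  -- partial sums
  let S : ℕ → D.ι → A := fun k x => φ (Additive.ofMul (D.coc (γ ^ k) x))
  have hS_add : ∀ a b x, S (a + b) x = S a x + S b ((σ ^ a) x) := by
    intro a b x
    simp only [S]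
    rw [pow_add, D.coc_mul, ofMul_mul, map_add, D.perm_pow]
  have hS_eq : ∀ a b x, (σ ^ a) x = (σ ^ b) x → S a x = S b x := by
    have key : ∀ a b x, a ≤ b → (σ ^ a) x = (σ ^ b) x → S a x = S b x := by
      intro a b x hab hx
      obtain ⟨c, rfl⟩ := Nat.exists_eq_add_of_le hab
      rw [hS_add]
      rcases Nat.eq_zero_or_pos c with rfl | hc
      · simp [S, D.coc_one]
      · have : (σ ^ c) ((σ ^ a) x) = (σ ^ a) x := by
          rw [← Equiv.Perm.mul_apply, ← pow_add, add_comm c a]
          exact hx.symm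
        have h0 : S c ((σ ^ a) x) = 0 := h _ c hc this
        rw [h0, add_zero]
    intro a b x hx
    rcases le_total a b with hab | hab
    · exact key a b x hab hx
    · exact (key b a x hab hx.symm).symm
  -- representatives of the cycles
  let s : Setoid D.ι := Equiv.Perm.SameCycle.setoid σ
  let rep : D.ι → D.ι := fun y => (Quotient.mk s y).out
  have hrep : ∀ y, σ.SameCycle (rep y) y := fun y => Quotient.exact (Quotient.out_eq (Quotient.mk s y))
  have hrepσ : ∀ y, rep (σ y) = rep y := by
    intro y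
    have : Quotient.mk s (σ y) = Quotient.mk s y := by
      apply Quotient.sound
      exact (Equiv.Perm.sameCycle_apply_left).2 (Equiv.Perm.SameCycle.refl σ y)
    simp only [rep, this]
  have hk : ∀ y, ∃ k : ℕ, (σ ^ k) (rep y) = y := by
    intro y
    obtain ⟨k, -, hk⟩ := (hrep y).exists_pow_eq'
    exact ⟨k, hk⟩
  choose k hk using hk
  let H : D.ι → A := fun y => S (k y) (rep y)
  have hf : ∀ y, φ (Additive.ofMul (D.coc γ y)) = H (σ y) - H y := by
    intro y
    have h1 : S (k y + 1) (rep y) = S (k y) (rep y) + S 1 y := by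
      rw [hS_add, hk]
    have h2 : S (k (σ y)) (rep (σ y)) = S (k y + 1) (rep y) := by
      rw [hrepσ]
      apply hS_eq
      have := hk (σ y)
      rw [hrepσ] at this
      rw [this, add_comm, pow_add, pow_one, Equiv.Perm.mul_apply, hk]
    have h3 : S 1 y = φ (Additive.ofMul (D.coc γ y)) := by simp [S]
    simp only [H]
    rw [h2, h1, h3]
    abel
  rw [T_apply]
  simp only [hf, Finset.sum_sub_distrib]
  rw [Equiv.sum_comp σ H, sub_self]

end HeckeDatum

end Fermat.Agent.GAL.HK
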