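import Fermat.Agent.GAL.HK.Bridge
import Fermat.Agent.GAL.HK.Cycle

/-!
# GAL / HK2 : `cohT`, `cohU` (any Hecke datum with representatives in `GL(2,ℝ)`) preserve parabolic
homomorphisms.  (The master statement `GAL.heckeCoh_isParabolicHom` is in `HK/CohBasic.lean`.)
-/

set_option autoImplicit false

open Matrix.SpecialLinearGroup CongruenceSubgroup ModularCurve ModularCurve.Period
open scoped MatrixGroups

namespace Fermat.Agent.GAL.HK

/-- Traces of powers of a `2 × 2` matrix of determinant `1` and trace `±2`. -/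
theorem trace_pow_of_trace_eq (A : Matrix (Fin 2) (Fin 2) ℤ) (hdet : A.det = 1) (ε : ℤ)
    (hε : ε ^ 2 = 1) (ht : A.trace = 2 * ε) (m : ℕ) : (A ^ m).trace = 2 * ε ^ m := by
  have hCH : A * A = A.trace • A - 1 := by
    rw [Matrix.det_fin_two] at hdet
    apply Matrix.ext
    intro i j
    rw [Matrix.sub_apply, Matrix.smul_apply, Matrix.mul_apply, Fin.sum_univ_two,
      Matrix.trace_fin_two, smul_eq_mul]
    fin_cases i <;> fin_cases j <;> simp <;>
      first | linear_combination (-1 : ℤ) * hdet | ring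
  induction m using Nat.twoStepInduction with
  | zero => simp
  | one => simpa using ht
  | more m ih1 ih2 =>
    have h1 : A ^ (m + 2) = A.trace • A ^ (m + 1) - A ^ m := by
      rw [pow_add, pow_two, hCH, mul_sub, mul_smul_comm, mul_one, ← pow_succ]
    rw [h1, Matrix.trace_sub, Matrix.trace_smul, ih1, ih2, ht, smul_eq_mul]
    linear_combination (2 * ε ^ m) * hε

theorem trace_pow_sq_eq_four (g : SL(2, ℤ))
    (h : (g : Matrix (Fin 2) (Fin 2) ℤ).trace ^ 2 = 4) (m : ℕ) :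
    ((g ^ m : SL(2, ℤ)) : Matrix (Fin 2) (Fin 2) ℤ).trace ^ 2 = 4 := by
  have h2 : (g : Matrix (Fin 2) (Fin 2) ℤ).trace = 2 ∨
      (g : Matrix (Fin 2) (Fin 2) ℤ).trace = -2 := by
    have : ((g : Matrix (Fin 2) (Fin 2) ℤ).trace - 2) *
        ((g : Matrix (Fin 2) (Fin 2) ℤ).trace + 2) = 0 := by linear_combination h
    rcases mul_eq_zero.1 this with h | h
    · left; linarith
    · right; linarith
  rw [Matrix.SpecialLinearGroup.coe_pow]
  rcases h2 with h2 | h2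
  · rw [trace_pow_of_trace_eq _ g.det_coe 1 (by norm_num) (by rw [h2]; norm_num) m]
    norm_num
  · rw [trace_pow_of_trace_eq _ g.det_coe (-1) (by norm_num) (by rw [h2]; norm_num) m]
    rw [mul_pow, ← pow_mul, mul_comm m 2, pow_mul]
    norm_num

theorem trace_mapGL (g : SL(2, ℤ)) :
    ((mapGL ℝ g : GL (Fin 2) ℝ) : Matrix (Fin 2) (Fin 2) ℝ).trace =
      (((g : Matrix (Fin 2) (Fin 2) ℤ).trace : ℤ) : ℝ) := by
  simp [Matrix.trace_fin_two]

/-- **HK2, abstract form.** -/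
theorem isParabolicHom_of_datum {Γ : Subgroup SL(2, ℤ)} (D : HeckeDatum Γ)
    (α : D.ι → GL (Fin 2) ℝ)
    (hα : ∀ (γ : Γ) (x : D.ι), α x * mapGL ℝ (γ : SL(2, ℤ)) =
      mapGL ℝ ((D.coc γ x : Γ) : SL(2, ℤ)) * α (D.perm γ x))
    {A : Type*} [AddCommGroup A] (P : Additive Γ →+ A) (hP : IsParabolicHom Γ P) :
    IsParabolicHom Γ (D.T A P) := by
  intro γ hγ
  apply HeckeDatum.T_apply_eq_zero
  intro x m _ hx
  apply hP
  have h1 := hα (γ ^ m) x
  rw [HeckeDatum.perm_pow, hx] at h1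
  have h2 : mapGL ℝ ((D.coc (γ ^ m) x : Γ) : SL(2, ℤ)) =
      α x * mapGL ℝ ((γ ^ m : Γ) : SL(2, ℤ)) * (α x)⁻¹ := by
    rw [h1, mul_inv_cancel_right]
  have h3 : ((mapGL ℝ ((D.coc (γ ^ m) x : Γ) : SL(2, ℤ)) : GL (Fin 2) ℝ) :
      Matrix (Fin 2) (Fin 2) ℝ).trace =
      ((mapGL ℝ ((γ ^ m : Γ) : SL(2, ℤ)) : GL (Fin 2) ℝ) : Matrix (Fin 2) (Fin 2) ℝ).trace := by
    rw [h2, Units.val_mul, Units.val_mul, Matrix.trace_units_conj]
  rw [trace_mapGL, trace_mapGL] at h3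
  have h4 := Int.cast_injective h3
  rw [h4, Subgroup.coe_pow]
  exact trace_pow_sq_eq_four _ hγ m

theorem cohT_isParabolicHom (M : ℕ) {ℓ : ℕ} (hℓ : ℓ.Prime) (hℓM : ¬ ℓ ∣ M) {A : Type*}
    [AddCommGroup A] (P : Additive (Gamma0 M) →+ A) (hP : IsParabolicHom (Gamma0 M) P) :
    IsParabolicHom (Gamma0 M) (cohT M hℓ hℓM A P) :=
  isParabolicHom_of_datum (datumT M hℓ hℓM) (repT M hℓ hℓM) (repT_mul M hℓ hℓM) P hP

theorem cohU_isParabolicHom (M : ℕ) {q : ℕ} (hq : q.Prime) (hqM : q ∣ M) {A : Type*}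
    [AddCommGroup A] (P : Additive (Gamma0 M) →+ A) (hP : IsParabolicHom (Gamma0 M) P) :
    IsParabolicHom (Gamma0 M) (cohU M hq hqM A P) :=
  isParabolicHom_of_datum (datumU M hq hqM) (repU M hq hqM) (repU_mul M hq hqM) P hP

end Fermat.Agent.GAL.HK
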