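import Fermat.Agent.GAL.HK.Coc

/-!
# GAL / HK : `heckeCoh_isParabolicHom` (Master.lean, block HK, item HK2; HK1 is in `Bridge.lean`)
-/

set_option autoImplicit false

open ModularCurve CongruenceSubgroup Matrix
open scoped MatrixGroups

namespace Fermat.Agent.GAL

open HK

/-- `heckeCoh` is the transfer operator of the Hecke datum. -/
theorem heckeCoh_eq_T {M ℓ : ℕ} (hℓ : ℓ.Prime) (hℓM : ¬ ℓ ∣ M) {A : Type*}
    [AddCommGroup A] (P : Additive (Gamma0 M) →+ A) :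
    heckeCoh M ℓ P = (heckeDatum hℓ hℓM).T A P := by
  have h : ∃ Q : Additive (Gamma0 M) →+ A, ∀ γ, Q (Additive.ofMul γ) = heckeCohFun M ℓ P γ :=
    ⟨(heckeDatum hℓ hℓM).T A P, fun γ => rfl⟩
  rw [heckeCoh, dif_pos h]
  refine AddMonoidHom.ext fun γ => ?_
  obtain ⟨γ, rfl⟩ := Additive.ofMul.surjective γ
  rw [h.choose_spec γ]
  rfl

/-- naturality of `heckeCoh` in the coefficients. -/
theorem heckeCoh_comp {M ℓ : ℕ} (hℓ : ℓ.Prime) (hℓM : ¬ ℓ ∣ M) {A B : Type*}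
    [AddCommGroup A] [AddCommGroup B] (f : A →+ B) (P : Additive (Gamma0 M) →+ A) :
    heckeCoh M ℓ (f.comp P) = f.comp (heckeCoh M ℓ P) := by
  rw [heckeCoh_eq_T hℓ hℓM, heckeCoh_eq_T hℓ hℓM, HeckeDatum.T_comp]

theorem heckeCoh_add {M ℓ : ℕ} (hℓ : ℓ.Prime) (hℓM : ¬ ℓ ∣ M) {A : Type*}
    [AddCommGroup A] (P Q : Additive (Gamma0 M) →+ A) :
    heckeCoh M ℓ (P + Q) = heckeCoh M ℓ P + heckeCoh M ℓ Q := by
  simp only [heckeCoh_eq_T hℓ hℓM, map_add]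

theorem heckeCoh_sum {M ℓ : ℕ} (hℓ : ℓ.Prime) (hℓM : ¬ ℓ ∣ M) {A : Type*}
    [AddCommGroup A] {ι : Type*} (s : Finset ι) (P : ι → (Additive (Gamma0 M) →+ A)) :
    heckeCoh M ℓ (∑ i ∈ s, P i) = ∑ i ∈ s, heckeCoh M ℓ (P i) := by
  simp only [heckeCoh_eq_T hℓ hℓM, map_sum]

theorem heckeCoh_smul {M ℓ : ℕ} (hℓ : ℓ.Prime) (hℓM : ¬ ℓ ∣ M) {R A : Type*} [Semiring R]
    [AddCommGroup A] [Module R A] (c : R) (P : Additive (Gamma0 M) →+ A) :
    heckeCoh M ℓ (c • P) = c • heckeCoh M ℓ P := by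
  simp only [heckeCoh_eq_T hℓ hℓM]
  exact ((heckeDatum hℓ hℓM).Tlin R A).map_smul c P

namespace HK

/-- Cayley–Hamilton in `SL₂`. -/
theorem sl_sq (g : SL(2, ℤ)) :
    (g : Matrix (Fin 2) (Fin 2) ℤ) * (g : Matrix (Fin 2) (Fin 2) ℤ) =
      (g : Matrix (Fin 2) (Fin 2) ℤ).trace • (g : Matrix (Fin 2) (Fin 2) ℤ) - 1 := by
  have hd := sl_det_eq g
  ext i j
  fin_cases i <;> fin_cases j <;>
    simp only [Matrix.mul_apply, Fin.sum_univ_two, Matrix.trace_fin_two, Matrix.sub_apply,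
      Matrix.smul_apply, smul_eq_mul, Fin.zero_eta, Fin.mk_one, Fin.isValue, Matrix.one_apply_eq,
      ne_eq, zero_ne_one, one_ne_zero, not_false_eq_true, Matrix.one_apply_ne, sub_zero]
  · linear_combination -hd
  · ring
  · ring
  · linear_combination -hd

theorem trace_pow_rec (g : SL(2, ℤ)) (m : ℕ) :
    ((g ^ (m + 2) : SL(2, ℤ)) : Matrix (Fin 2) (Fin 2) ℤ).trace =
      (g : Matrix (Fin 2) (Fin 2) ℤ).trace * ((g ^ (m + 1) : SL(2, ℤ)) : Matrix (Fin 2) (Fin 2) ℤ).trace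
        - ((g ^ m : SL(2, ℤ)) : Matrix (Fin 2) (Fin 2) ℤ).trace := by
  have h : ((g ^ (m + 2) : SL(2, ℤ)) : Matrix (Fin 2) (Fin 2) ℤ) =
      (g : Matrix (Fin 2) (Fin 2) ℤ).trace • ((g ^ (m + 1) : SL(2, ℤ)) : Matrix (Fin 2) (Fin 2) ℤ)
        - ((g ^ m : SL(2, ℤ)) : Matrix (Fin 2) (Fin 2) ℤ) := by
    rw [pow_add, pow_two, pow_succ]
    simp only [Matrix.SpecialLinearGroup.coe_mul]
    rw [sl_sq, Matrix.mul_sub, Matrix.mul_one, Matrix.mul_smul]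
  rw [h, Matrix.trace_sub, Matrix.trace_smul, smul_eq_mul]

/-- powers of parabolic elements are parabolic. -/
theorem trace_pow_sq_eq (g : SL(2, ℤ)) (h : (g : Matrix (Fin 2) (Fin 2) ℤ).trace ^ 2 = 4) (m : ℕ) :
    ((g ^ m : SL(2, ℤ)) : Matrix (Fin 2) (Fin 2) ℤ).trace ^ 2 = 4 := by
  set t := (g : Matrix (Fin 2) (Fin 2) ℤ).trace with ht
  have key : ∀ m : ℕ, 2 * ((g ^ (m + 1) : SL(2, ℤ)) : Matrix (Fin 2) (Fin 2) ℤ).trace =
      t * ((g ^ m : SL(2, ℤ)) : Matrix (Fin 2) (Fin 2) ℤ).trace := by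
    intro m
    induction m with
    | zero => simp [Matrix.trace_fin_two, ht]; ring
    | succ m ih =>
      rw [trace_pow_rec, ← ht]
      apply mul_left_cancel₀ (two_ne_zero (α := ℤ))
      linear_combination t * ih + ((g ^ m : SL(2, ℤ)) : Matrix (Fin 2) (Fin 2) ℤ).trace * h
  induction m with
  | zero => simp
  | succ m ih =>
    have := key m
    have h4 : 4 * ((g ^ (m + 1) : SL(2, ℤ)) : Matrix (Fin 2) (Fin 2) ℤ).trace ^ 2 = 4 * 4 := by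
      have : (2 * ((g ^ (m + 1) : SL(2, ℤ)) : Matrix (Fin 2) (Fin 2) ℤ).trace) ^ 2 =
          t ^ 2 * ((g ^ m : SL(2, ℤ)) : Matrix (Fin 2) (Fin 2) ℤ).trace ^ 2 := by
        rw [this]; ring
      rw [h, ih] at this
      linear_combination this
    linarith

/-- conjugate matrices have the same trace. -/
theorem trace_eq_of_rep {ℓ : ℕ} (hℓ : ℓ ≠ 0) {g g' : Matrix (Fin 2) (Fin 2) ℤ} {i : Option (Fin ℓ)}
    (h : heckeRep ℓ i * g = g' * heckeRep ℓ i) : g'.trace = g.trace := by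
  have hℓ0 : (ℓ : ℤ) ≠ 0 := by exact_mod_cast hℓ
  have h2 := congrArg (fun X => (X * (heckeRep ℓ i).adjugate).trace) h
  simp only [Matrix.mul_assoc, Matrix.mul_adjugate, det_heckeRep] at h2
  rw [Matrix.trace_mul_comm, Matrix.mul_assoc, Matrix.adjugate_mul, det_heckeRep] at h2
  simp only [Matrix.mul_smul, Matrix.mul_one, Matrix.trace_smul, smul_eq_mul] at h2
  exact (mul_left_cancel₀ hℓ0 h2).symm

end HK

/-- (HK2) `heckeCoh` preserves parabolic homomorphisms. -/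
theorem heckeCoh_isParabolicHom (M ℓ : ℕ) [NeZero M] (hℓ : ℓ.Prime) (hℓM : ¬ ℓ ∣ M) {A : Type*}
    [AddCommGroup A] (P : Additive (Gamma0 M) →+ A) (hP : Period.IsParabolicHom (Gamma0 M) P) :
    Period.IsParabolicHom (Gamma0 M) (heckeCoh M ℓ P) := by
  intro γ hγ
  rw [heckeCoh_eq_T hℓ hℓM]
  apply HeckeDatum.T_apply_eq_zero
  intro x m _ hx
  apply hP
  have h1 := heckeCoc_spec_idx hℓ hℓM (γ ^ m) x
  have h2 : heckeIdx M ℓ (γ ^ m) x = x := by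
    have := (heckeDatum hℓ hℓM).perm_pow γ m x
    rw [hx] at this
    exact this
  rw [h2] at h1
  have h3 := trace_eq_of_rep hℓ.ne_zero h1
  show ((heckeCoc M ℓ (γ ^ m) x : SL(2, ℤ)) : Matrix (Fin 2) (Fin 2) ℤ).trace ^ 2 = 4
  rw [h3]
  exact trace_pow_sq_eq (γ : SL(2, ℤ)) hγ m

end Fermat.Agent.GAL
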