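import Mathlib

/-!
# GAL / HK5 : eigenvectors in `K ⊗ Λ` for a faithful commutative ring of operators on a lattice

`𝕋` a commutative ring acting faithfully on a finitely generated free `ℤ`-module `Λ`, `K` any field
and `ψ : 𝕋 →+* K` any ring homomorphism.  Then the eigensystem `ψ` occurs in `K ⊗[ℤ] Λ`.
-/

set_option autoImplicit false

open scoped TensorProduct

namespace Fermat.Agent.GAL.HK

/-- A finitely generated faithful module over a commutative ring has, for every ring homomorphism
`ψ` to a field, a nonzero `ψ`-semilinear functional. -/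
theorem exists_functional_of_faithful {𝕋 M K : Type*} [CommRing 𝕋] [AddCommGroup M] [Module 𝕋 M]
    [Module.Finite 𝕋 M] (hfaith : ∀ t : 𝕋, (∀ m : M, t • m = 0) → t = 0) [Field K]
    (ψ : 𝕋 →+* K) :
    ∃ φ : M →+ K, φ ≠ 0 ∧ ∀ (t : 𝕋) (m : M), φ (t • m) = ψ t * φ m := by
  classical
  have hprime : (RingHom.ker ψ).IsPrime := RingHom.ker_isPrime ψ
  let p : PrimeSpectrum 𝕋 := ⟨RingHom.ker ψ, hprime⟩
  have hann : Module.annihilator 𝕋 M = ⊥ := by
    rw [eq_bot_iff]
    intro t ht
    rw [Module.mem_annihilator] at ht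
    exact (Submodule.mem_bot 𝕋).2 (hfaith t ht)
  have hp : p ∈ Module.support 𝕋 M := by
    rw [Module.support_eq_zeroLocus, hann]
    simp
  rw [Module.mem_support_iff_nontrivial_residueField_tensorProduct] at hp
  set κ := p.asIdeal.ResidueField with hκ
  obtain ⟨x, hx⟩ := exists_ne (0 : κ ⊗[𝕋] M)
  obtain ⟨f, hf⟩ : ∃ f : Module.Dual κ (κ ⊗[𝕋] M), f x ≠ 0 := by
    by_contra hcon
    push Not at hcon
    exact hx ((Module.forall_dual_apply_eq_zero_iff κ x).1 hcon)
  let ι : κ →+* K := Ideal.ResidueField.lift (RingHom.ker ψ) ψ le_rfl (by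
    intro t ht
    have : ψ t ≠ 0 := fun h => ht (RingHom.mem_ker.2 h)
    exact isUnit_iff_ne_zero.2 this)
  have hι : ∀ t : 𝕋, ι (algebraMap 𝕋 κ t) = ψ t := fun t =>
    Ideal.ResidueField.lift_algebraMap (RingHom.ker ψ) ψ _ _ t
  let φ : M →+ K :=
    { toFun := fun m => ι (f ((1 : κ) ⊗ₜ[𝕋] m))
      map_zero' := by simp
      map_add' := fun a b => by simp [TensorProduct.tmul_add] }
  refine ⟨φ, ?_, ?_⟩
  · intro h0
    have hz : ∀ m : M, f ((1 : κ) ⊗ₜ[𝕋] m) = 0 := by
      intro m
      have : φ m = 0 := by rw [h0]; rfl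
      exact (map_eq_zero ι).1 this
    have hall : ∀ y : κ ⊗[𝕋] M, f y = 0 := by
      intro y
      induction y using TensorProduct.induction_on with
      | zero => simp
      | tmul c m =>
        have : c ⊗ₜ[𝕋] m = c • ((1 : κ) ⊗ₜ[𝕋] m) := by
          rw [TensorProduct.smul_tmul', smul_eq_mul, mul_one]
        rw [this, map_smul, hz, smul_zero]
      | add a b ha hb => rw [map_add, ha, hb, add_zero]
    exact hf (hall x)
  · intro t m
    show ι (f ((1 : κ) ⊗ₜ[𝕋] (t • m))) = ψ t * ι (f ((1 : κ) ⊗ₜ[𝕋] m))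
    have : (1 : κ) ⊗ₜ[𝕋] (t • m) = (algebraMap 𝕋 κ t) • ((1 : κ) ⊗ₜ[𝕋] m) := by
      rw [TensorProduct.smul_tmul', smul_eq_mul, mul_one, TensorProduct.tmul_smul,
        TensorProduct.smul_tmul', Algebra.smul_def, mul_one]
    rw [this, map_smul, smul_eq_mul, map_mul, hι]

/-- The same statement for an action given by a ring homomorphism into the additive
endomorphisms of a finitely generated abelian group. -/
theorem exists_functional_of_injective {𝕋 M K : Type*} [CommRing 𝕋] [AddCommGroup M]
    [Module.Finite ℤ M] (act : 𝕋 →+* Module.End ℤ M) (hact : Function.Injective act) [Field K]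
    (ψ : 𝕋 →+* K) :
    ∃ φ : M →+ K, φ ≠ 0 ∧ ∀ (t : 𝕋) (m : M), φ (act t m) = ψ t * φ m := by
  let _ : Module 𝕋 M := Module.compHom M act
  have : Module.Finite 𝕋 M := Module.Finite.of_restrictScalars_finite ℤ 𝕋 M
  refine exists_functional_of_faithful (𝕋 := 𝕋) (M := M) ?_ ψ
  intro t ht
  apply hact
  rw [map_zero]
  ext m
  exact ht m

/-- **HK5.** `𝕋` commutative, acting faithfully on the finitely generated free `ℤ`-module `Λ`.
Every ring homomorphism `ψ` from `𝕋` to a field `K` occurs as an eigensystem in `K ⊗[ℤ] Λ`. -/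
theorem exists_eigenvector {𝕋 Λ K : Type*} [CommRing 𝕋] [AddCommGroup Λ] [Module.Free ℤ Λ]
    [Module.Finite ℤ Λ] [Field K] (act : 𝕋 →+* Module.End ℤ Λ) (hact : Function.Injective act)
    (ψ : 𝕋 →+* K) :
    ∃ v : K ⊗[ℤ] Λ, v ≠ 0 ∧ ∀ t : 𝕋, (act t).baseChange K v = ψ t • v := by
  classical
  let b := Module.Free.chooseBasis ℤ Λ
  -- the transposed action on the dual lattice
  let actD : 𝕋 →+* Module.End ℤ (Module.Dual ℤ Λ) :=
    { toFun := fun t => (act t).dualMap
      map_one' := by rw [map_one]; exact LinearMap.dualMap_id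
      map_mul' := fun s t => by
        rw [mul_comm s t, map_mul]
        exact LinearMap.dualMap_comp_dualMap (act s) (act t) |>.symm
      map_zero' := by rw [map_zero]; ext; simp
      map_add' := fun s t => by rw [map_add]; ext; simp }
  have hactD : Function.Injective actD := by
    intro s t hst
    apply hact
    ext x
    have h1 : ∀ f : Module.Dual ℤ Λ, f (act s x) = f (act t x) := fun f => by
      have := congrArg (fun (g : Module.End ℤ (Module.Dual ℤ Λ)) => g f x) hst
      simpa [actD] using this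
    have h2 : ∀ f : Module.Dual ℤ Λ, f (act s x - act t x) = 0 := fun f => by
      rw [map_sub, h1, sub_self]
    exact sub_eq_zero.1 ((Module.forall_dual_apply_eq_zero_iff ℤ _).1 h2)
  obtain ⟨φ, hφ0, hφ⟩ := exists_functional_of_injective actD hactD ψ
  have hexp : ∀ f : Module.Dual ℤ Λ, φ f = ∑ i, f (b i) • φ (b.coord i) := by
    intro f
    conv_lhs => rw [← b.sum_dual_apply_smul_coord f]
    rw [map_sum]
    exact Finset.sum_congr rfl fun i _ => map_zsmul φ _ _
  refine ⟨∑ i, φ (b.coord i) ⊗ₜ[ℤ] b i, ?_, ?_⟩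
  · intro hv
    apply hφ0
    have hcoef : ∀ i, φ (b.coord i) = 0 := by
      have hli := (b.baseChange K).linearIndependent
      rw [Fintype.linearIndependent_iff] at hli
      refine hli (fun i => φ (b.coord i)) ?_
      rw [← hv]
      refine Finset.sum_congr rfl fun i _ => ?_
      rw [Module.Basis.baseChange_apply, TensorProduct.smul_tmul', smul_eq_mul, mul_one]
    ext f
    rw [hexp f]
    simp [hcoef]
  · intro t
    rw [map_sum, Finset.smul_sum]
    have hL : ∀ i, (act t).baseChange K (φ (b.coord i) ⊗ₜ[ℤ] b i)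
        = ∑ j, (b.coord j (act t (b i)) • φ (b.coord i)) ⊗ₜ[ℤ] b j := by
      intro i
      rw [LinearMap.baseChange_tmul]
      conv_lhs => rw [← b.sum_repr (act t (b i))]
      rw [TensorProduct.tmul_sum]
      refine Finset.sum_congr rfl fun j _ => ?_
      rw [TensorProduct.tmul_smul, TensorProduct.smul_tmul']
      rfl
    have hR : ∀ j, ψ t • (φ (b.coord j) ⊗ₜ[ℤ] b j)
        = ∑ i, (b.coord j (act t (b i)) • φ (b.coord i)) ⊗ₜ[ℤ] b j := by
      intro j
      rw [TensorProduct.smul_tmul', smul_eq_mul, ← hφ t (b.coord j), hexp, TensorProduct.sum_tmul]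
      rfl
    rw [Finset.sum_congr rfl fun i _ => hL i, Finset.sum_congr rfl fun j _ => hR j,
      Finset.sum_comm]

end Fermat.Agent.GAL.HK
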