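import Mathlib
import Fermat.Agent.GAL.HK.Data
import Fermat.Prelude.Def_ModularCurve_PeriodHomPair

/-!
# GAL / HK4b : uniqueness of `perm`, `coc`; the involution `charInvolution` commutes with the
cohomological Hecke operators
-/

set_option autoImplicit false

open Matrix.SpecialLinearGroup CongruenceSubgroup ModularCurve.Period
open scoped MatrixGroups
open P2MW.S_ModularForm_heckeT_slash_eq_self_of_mem_Gamma0.ModularForm.HeckeSlashInvariance

namespace Fermat.Agent.GAL.HK

namespace HeckeDatum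

variable {Γ G : Type*} [Group Γ] [Group G] (D : HeckeDatum Γ) (i : Γ →* G) (α : D.ι → G)

/-- `α` is a system of representatives of pairwise distinct cosets `Γ α_x` realising `D`. -/
structure IsRep : Prop where
  spec : ∀ γ x, α x * i γ = i (D.coc γ x) * α (D.perm γ x)
  inj : Function.Injective i
  dist : ∀ x y (t : Γ), α x = i t * α y → x = y

variable {D i α}

theorem IsRep.unique (h : IsRep D i α) {γ γ' : Γ} {x y : D.ι}
    (h1 : α x * i γ = i γ' * α y) : y = D.perm γ x ∧ γ' = D.coc γ x := by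
  have h2 := h.spec γ x
  rw [h1] at h2
  have h3 : α y = i (γ'⁻¹ * D.coc γ x) * α (D.perm γ x) := by
    rw [map_mul, map_inv, mul_assoc, ← h2, inv_mul_cancel_left]
  have h4 := h.dist _ _ _ h3
  subst h4
  exact ⟨rfl, h.inj (mul_right_cancel h2)⟩

/-- **Involution lemma.** -/
theorem IsRep.T_comp_invol (h : IsRep D i α) (E : G) (j : Γ →* Γ) (hj : ∀ γ, j (j γ) = γ)
    (hE : ∀ γ, E * i γ = i (j γ) * E)
    (hα : ∀ x, ∃ (y : D.ι) (t : Γ), E * α x = i t * α y * E)
    (A : Type*) [AddCommGroup A] (φ : Additive Γ →+ A) :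
    D.T A (φ.comp (MonoidHom.toAdditive j)) = (D.T A φ).comp (MonoidHom.toAdditive j) := by
  choose ν t hνt using hα
  have hνinj : Function.Injective ν := by
    intro x x' hxx
    have h1 := hνt x
    have h2 := hνt x'
    rw [← hxx] at h2
    have h3 : α (ν x) * E = i (t x')⁻¹ * (E * α x') := by
      rw [h2, map_inv, mul_assoc, inv_mul_cancel_left]
    have h4 : E * α x = E * (i (j (t x * (t x')⁻¹)) * α x') := by
      rw [← mul_assoc E, hE, hj, h1, mul_assoc, h3, map_mul, mul_assoc, mul_assoc]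
    exact h.dist _ _ _ (mul_left_cancel h4)
  have hνbij : Function.Bijective ν := Finite.injective_iff_bijective.mp hνinj
  have key : ∀ γ x, D.perm (j γ) (ν x) = ν (D.perm γ x) ∧
      D.coc (j γ) (ν x) = (t x)⁻¹ * j (D.coc γ x) * t (D.perm γ x) := by
    intro γ x
    have h1 : α (ν x) * i (j γ) =
        i ((t x)⁻¹ * j (D.coc γ x) * t (D.perm γ x)) * α (ν (D.perm γ x)) := by
      have h2 : E * (α x * i γ) = E * (i (D.coc γ x) * α (D.perm γ x)) := by rw [h.spec]
      rw [← mul_assoc, hνt x, mul_assoc, hE, ← mul_assoc E, hE, mul_assoc (i (j (D.coc γ x))),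
        hνt (D.perm γ x)] at h2
      have h3 : i (t x) * (α (ν x) * i (j γ)) =
          i (j (D.coc γ x)) * (i (t (D.perm γ x)) * α (ν (D.perm γ x))) := by
        apply mul_right_cancel (b := E)
        simpa only [mul_assoc] using h2
      rw [map_mul, map_mul, map_inv, mul_assoc, mul_assoc, ← h3, inv_mul_cancel_left]
    obtain ⟨h5, h6⟩ := h.unique h1
    exact ⟨h5.symm, h6.symm⟩
  refine AddMonoidHom.ext fun γ => ?_
  obtain ⟨γ, rfl⟩ := Additive.ofMul.surjective γ
  show ∑ x, φ (Additive.ofMul (j (D.coc γ x))) = ∑ x, φ (Additive.ofMul (D.coc (j γ) x))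
  rw [← Equiv.sum_comp (Equiv.ofBijective ν hνbij)
    (fun x => φ (Additive.ofMul (D.coc (j γ) x)))]
  simp only [Equiv.ofBijective_apply, (key γ _).2, ofMul_mul, ofMul_inv, map_add, map_neg,
    Finset.sum_add_distrib, Finset.sum_neg_distrib]
  rw [Equiv.sum_comp (D.perm γ) (fun x => φ (Additive.ofMul (t x)))]
  abel

end HeckeDatum

/-! ### distinctness of the cosets -/

theorem heckeMatrix_dist {p : ℕ} [NeZero p] (a b : ZMod p) (δ : SL(2, ℤ))
    (h : ModularForm.heckeMatrix p a.val = mapGL ℝ δ * ModularForm.heckeMatrix p b.val) :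
    a = b := by
  have hp : p ≠ 0 := NeZero.ne p
  have h00 := congrArg (fun M : GL (Fin 2) ℝ => M 0 0) h
  have h01 := congrArg (fun M : GL (Fin 2) ℝ => M 0 1) h
  simp [hp, Matrix.mul_apply, Fin.sum_univ_two] at h00 h01
  have h00' : δ 0 0 = 1 := by exact_mod_cast h00.symm
  rw [h00'] at h01
  have h01' : (a.val : ℤ) = b.val + δ 0 1 * p := by
    have : ((a.val : ℤ) : ℝ) = ((b.val + δ 0 1 * p : ℤ) : ℝ) := by push_cast; simpa using h01
    exact_mod_cast this
  have := congrArg (Int.cast : ℤ → ZMod p) h01'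
  simpa using this

theorem heckeRep_dist {p : ℕ} (hp : p.Prime) (a b : OnePoint (ZMod p)) (δ : SL(2, ℤ))
    (h : heckeRep p a = mapGL ℝ δ * heckeRep p b) : a = b := by
  have : NeZero p := ⟨hp.ne_zero⟩
  have hp0 : p ≠ 0 := hp.ne_zero
  induction a using OnePoint.rec with
  | infty =>
    induction b using OnePoint.rec with
    | infty => rfl
    | coe j =>
      exfalso
      rw [heckeRep_infty, heckeRep_coe] at h
      have h00 := congrArg (fun M : GL (Fin 2) ℝ => M 0 0) h
      have h10 := congrArg (fun M : GL (Fin 2) ℝ => M 1 0) h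
      simp [hp0, Matrix.mul_apply, Fin.sum_univ_two] at h00 h10
      have h00' : δ 0 0 = p := by exact_mod_cast h00.symm
      have h10' : δ 1 0 = 0 := by exact_mod_cast h10.symm
      have hdet := det_eq δ
      rw [h00', h10'] at hdet
      have : (p : ℤ) ∣ 1 := ⟨δ 1 1, by linarith⟩
      have := Int.le_of_dvd one_pos this
      have := hp.two_le
      omega
  | coe i =>
    induction b using OnePoint.rec with
    | infty =>
      exfalso
      rw [heckeRep_infty, heckeRep_coe] at h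
      have h00 := congrArg (fun M : GL (Fin 2) ℝ => M 0 0) h
      simp [hp0, Matrix.mul_apply, Fin.sum_univ_two] at h00
      have h00' : (1 : ℤ) = δ 0 0 * p := by exact_mod_cast h00
      have : (p : ℤ) ∣ 1 := ⟨δ 0 0, by linarith⟩
      have := Int.le_of_dvd one_pos this
      have := hp.two_le
      omega
    | coe j =>
      rw [heckeRep_coe, heckeRep_coe] at h
      rw [heckeMatrix_dist i j δ h]

variable (N : ℕ)

/-- the embedding `Γ₀(N) → GL(2,ℝ)` -/
noncomputable def incl : Gamma0 N →* GL (Fin 2) ℝ := (mapGL ℝ).comp (Gamma0 N).subtype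

@[simp] theorem incl_apply (γ : Gamma0 N) : incl N γ = mapGL ℝ (γ : SL(2, ℤ)) := rfl

theorem incl_injective : Function.Injective (incl N) := fun _ _ h =>
  Subtype.ext (mapGL_injective (R := ℤ) (S := ℝ) h)

theorem isRep_datumT {ℓ : ℕ} (hℓ : ℓ.Prime) (hℓN : ¬ ℓ ∣ N) :
    (datumT N hℓ hℓN).IsRep (incl N) (repT N hℓ hℓN) where
  spec := repT_mul N hℓ hℓN
  inj := incl_injective N
  dist := fun _ _ _ h => (datumT_equiv N hℓ hℓN).injective (heckeRep_dist hℓ _ _ _ h)

theorem isRep_datumU {q : ℕ} (hq : q.Prime) (hqN : q ∣ N) :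
    (datumU N hq hqN).IsRep (incl N) (repU N hq hqN) where
  spec := repU_mul N hq hqN
  inj := incl_injective N
  dist := fun _ _ _ h =>
    haveI : NeZero q := ⟨hq.ne_zero⟩
    (datumU_equiv N hq hqN).injective (heckeMatrix_dist _ _ _ h)

/-! ### the involution -/

/-- `diag(1,-1)` -/
noncomputable def Eps : GL (Fin 2) ℝ :=
  Matrix.GeneralLinearGroup.mkOfDetNeZero !![1, 0; 0, -1] (by simp)

theorem Eps_mul_incl (γ : Gamma0 N) : Eps * incl N γ = incl N (jConjGamma0 N γ) * Eps := by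
  ext i j
  fin_cases i <;> fin_cases j <;>
    simp [Eps, Matrix.mul_apply, Fin.sum_univ_two, jConjMat]

theorem Eps_mul_heckeMatrix {p : ℕ} [NeZero p] (a : ZMod p) :
    ∃ t : Gamma0 N, Eps * ModularForm.heckeMatrix p a.val =
      incl N t * ModularForm.heckeMatrix p (-a).val * Eps := by
  have hp : p ≠ 0 := NeZero.ne p
  obtain ⟨m, hm⟩ : (p : ℤ) ∣ -(a.val : ℤ) - ((-a).val : ℤ) := by
    rw [← ZMod.intCast_zmod_eq_zero_iff_dvd]
    simp
  refine ⟨⟨⟨!![1, m; 0, 1], by simp⟩, by simp [Gamma0_mem]⟩, ?_⟩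
  have hm' : -(a.val : ℝ) - ((-a).val : ℝ) = p * m := by exact_mod_cast hm
  rw [ZMod.natCast_val, ZMod.natCast_val] at hm'
  ext i j
  fin_cases i <;> fin_cases j <;>
    simp [Eps, hp, Matrix.mul_apply, Fin.sum_univ_two]
  linarith

theorem Eps_mul_heckeRep {p : ℕ} (hp : p.Prime) (a : OnePoint (ZMod p)) :
    ∃ (b : OnePoint (ZMod p)) (t : Gamma0 N), Eps * heckeRep p a = incl N t * heckeRep p b * Eps := by
  have : NeZero p := ⟨hp.ne_zero⟩
  induction a using OnePoint.rec with
  | infty =>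
    refine ⟨OnePoint.infty, 1, ?_⟩
    ext i j
    fin_cases i <;> fin_cases j <;>
      simp [Eps, hp.ne_zero, Matrix.mul_apply, Fin.sum_univ_two]
  | coe i =>
    obtain ⟨t, ht⟩ := Eps_mul_heckeMatrix N i
    exact ⟨((-i : ZMod p) : OnePoint (ZMod p)), t, ht⟩

/-- **HK4b**: `charInvolution` commutes with `cohT`. -/
theorem cohT_charInvolution {ℓ : ℕ} (hℓ : ℓ.Prime) (hℓN : ¬ ℓ ∣ N)
    (R : Type*) [Semiring R] (A : Type*) [AddCommGroup A] [Module R A]
    (φ : Additive (Gamma0 N) →+ A) :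
    cohT N hℓ hℓN A (charInvolution N R A φ) = charInvolution N R A (cohT N hℓ hℓN A φ) := by
  refine (isRep_datumT N hℓ hℓN).T_comp_invol Eps (jConjGamma0 N) (jConjGamma0_jConjGamma0 N)
    (Eps_mul_incl N) (fun x => ?_) A φ
  obtain ⟨b, t, h⟩ := Eps_mul_heckeRep N hℓ (datumT_equiv N hℓ hℓN x)
  refine ⟨(datumT_equiv N hℓ hℓN).symm b, t, ?_⟩
  unfold repT
  rw [Equiv.apply_symm_apply]
  exact h

/-- **HK4b**: `charInvolution` commutes with `cohU`. -/
theorem cohU_charInvolution {q : ℕ} (hq : q.Prime) (hqN : q ∣ N)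
    (R : Type*) [Semiring R] (A : Type*) [AddCommGroup A] [Module R A]
    (φ : Additive (Gamma0 N) →+ A) :
    cohU N hq hqN A (charInvolution N R A φ) = charInvolution N R A (cohU N hq hqN A φ) := by
  have : NeZero q := ⟨hq.ne_zero⟩
  refine (isRep_datumU N hq hqN).T_comp_invol Eps (jConjGamma0 N) (jConjGamma0_jConjGamma0 N)
    (Eps_mul_incl N) (fun x => ?_) A φ
  obtain ⟨t, h⟩ := Eps_mul_heckeMatrix N (datumU_equiv N hq hqN x)
  refine ⟨(datumU_equiv N hq hqN).symm (-(datumU_equiv N hq hqN x)), t, ?_⟩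
  unfold repU
  rw [Equiv.apply_symm_apply]
  exact h

end Fermat.Agent.GAL.HK
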