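import Fermat.Agent.GAL.HeckeCoh
import Fermat.Agent.GAL.HK.Invol

/-!
# GAL / HK : bridge between `GAL.heckeCoh` (master definitions: integer matrices, index set
`Option (Fin ℓ)`, cocycle defined by choice) and `HK.cohT` (Hecke datum `datumT`)
-/

set_option autoImplicit false

open Matrix.SpecialLinearGroup CongruenceSubgroup
open scoped MatrixGroups

namespace Fermat.Agent.GAL.HK

local notation "preRep" =>
  P2MW.S_ModularForm_heckeT_slash_eq_self_of_mem_Gamma0.ModularForm.HeckeSlashInvariance.heckeRep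

/-- the identification of index sets -/
noncomputable def idx (ℓ : ℕ) [NeZero ℓ] : Option (Fin ℓ) ≃ OnePoint (ZMod ℓ) :=
  Equiv.optionCongr (ZMod.finEquiv ℓ).toEquiv

theorem val_finEquiv (ℓ : ℕ) [NeZero ℓ] (b : Fin ℓ) : (ZMod.finEquiv ℓ b).val = b.val := by
  cases ℓ with
  | zero => exact b.elim0
  | succ n => rfl

theorem preRep_idx {ℓ : ℕ} [NeZero ℓ] (i : Option (Fin ℓ)) :
    ((preRep ℓ (idx ℓ i) : GL (Fin 2) ℝ) : Matrix (Fin 2) (Fin 2) ℝ) =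
      (GAL.heckeRep ℓ i).map (Int.cast : ℤ → ℝ) := by
  cases i with
  | none =>
    change ((ModularForm.heckeDiagMatrix ℓ : GL (Fin 2) ℝ) : Matrix (Fin 2) (Fin 2) ℝ) = _
    rw [ModularForm.val_heckeDiagMatrix (NeZero.ne ℓ)]
    ext a b
    fin_cases a <;> fin_cases b <;> simp [GAL.heckeRep]
  | some b =>
    change ((ModularForm.heckeMatrix ℓ (ZMod.finEquiv ℓ b).val : GL (Fin 2) ℝ) :
      Matrix (Fin 2) (Fin 2) ℝ) = _
    rw [ModularForm.val_heckeMatrix (NeZero.ne ℓ), val_finEquiv]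
    ext a c
    fin_cases a <;> fin_cases c <;> simp [GAL.heckeRep]

variable (M : ℕ) {ℓ : ℕ} (hℓ : ℓ.Prime) (hℓM : ¬ ℓ ∣ M)

/-- index translation `Option (Fin ℓ) ≃ (datumT M hℓ hℓM).ι` -/
noncomputable def idxT : Option (Fin ℓ) ≃ (datumT M hℓ hℓM).ι :=
  haveI : NeZero ℓ := ⟨hℓ.ne_zero⟩
  (idx ℓ).trans (datumT_equiv M hℓ hℓM).symm

theorem repT_idxT (i : Option (Fin ℓ)) :
    ((repT M hℓ hℓM (idxT M hℓ hℓM i) : GL (Fin 2) ℝ) : Matrix (Fin 2) (Fin 2) ℝ) =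
      (GAL.heckeRep ℓ i).map (Int.cast : ℤ → ℝ) := by
  have : NeZero ℓ := ⟨hℓ.ne_zero⟩
  unfold repT idxT
  simp only [Equiv.trans_apply, Equiv.apply_symm_apply]
  exact preRep_idx i

theorem coe_incl (γ : Gamma0 M) :
    ((incl M γ : GL (Fin 2) ℝ) : Matrix (Fin 2) (Fin 2) ℝ) =
      (((γ : SL(2, ℤ)) : Matrix (Fin 2) (Fin 2) ℤ)).map (Int.cast : ℤ → ℝ) := by
  rfl

/-- translation between identities of integer matrices and identities in `GL(2,ℝ)`. -/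
theorem rep_mul_iff (γ γ' : Gamma0 M) (i j : Option (Fin ℓ)) :
    GAL.heckeRep ℓ i * ((γ : SL(2, ℤ)) : Matrix (Fin 2) (Fin 2) ℤ) =
        ((γ' : SL(2, ℤ)) : Matrix (Fin 2) (Fin 2) ℤ) * GAL.heckeRep ℓ j ↔
      repT M hℓ hℓM (idxT M hℓ hℓM i) * incl M γ =
        incl M γ' * repT M hℓ hℓM (idxT M hℓ hℓM j) := by
  rw [← Units.val_inj, Units.val_mul, Units.val_mul, repT_idxT, repT_idxT, coe_incl, coe_incl]
  have hmap : ∀ A B : Matrix (Fin 2) (Fin 2) ℤ,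
      A.map (Int.cast : ℤ → ℝ) * B.map (Int.cast : ℤ → ℝ) = (A * B).map (Int.cast : ℤ → ℝ) :=
    fun A B => (Matrix.map_mul (f := Int.castRingHom ℝ)).symm
  rw [hmap, hmap]
  exact (Matrix.map_injective Int.cast_injective).eq_iff.symm

/-- The integer-matrix cocycle relation for `datumT`. -/
theorem heckeRep_mul (γ : Gamma0 M) (i : Option (Fin ℓ)) :
    GAL.heckeRep ℓ i * ((γ : SL(2, ℤ)) : Matrix (Fin 2) (Fin 2) ℤ) =
      ((((datumT M hℓ hℓM).coc γ (idxT M hℓ hℓM i) : Gamma0 M) : SL(2, ℤ)) :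
        Matrix (Fin 2) (Fin 2) ℤ) *
        GAL.heckeRep ℓ ((idxT M hℓ hℓM).symm ((datumT M hℓ hℓM).perm γ (idxT M hℓ hℓM i))) := by
  rw [rep_mul_iff M hℓ hℓM, Equiv.apply_symm_apply]
  exact repT_mul M hℓ hℓM γ _

/-- uniqueness: any solution of `α_i γ = γ' α_j` is the one of the datum -/
theorem heckeRep_mul_unique {γ γ' : Gamma0 M} {i j : Option (Fin ℓ)}
    (h : GAL.heckeRep ℓ i * ((γ : SL(2, ℤ)) : Matrix (Fin 2) (Fin 2) ℤ) =
        ((γ' : SL(2, ℤ)) : Matrix (Fin 2) (Fin 2) ℤ) * GAL.heckeRep ℓ j) :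
    idxT M hℓ hℓM j = (datumT M hℓ hℓM).perm γ (idxT M hℓ hℓM i) ∧
      γ' = (datumT M hℓ hℓM).coc γ (idxT M hℓ hℓM i) :=
  (isRep_datumT M hℓ hℓM).unique ((rep_mul_iff M hℓ hℓM γ γ' i j).1 h)

theorem heckeCoc_eq (γ : Gamma0 M) (i : Option (Fin ℓ)) :
    GAL.heckeCoc M ℓ γ i = (datumT M hℓ hℓM).coc γ (idxT M hℓ hℓM i) := by
  have hex : ∃ γ' : Gamma0 M, ∃ j : Option (Fin ℓ),
      GAL.heckeRep ℓ i * ((γ : SL(2, ℤ)) : Matrix (Fin 2) (Fin 2) ℤ) =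
        ((γ' : SL(2, ℤ)) : Matrix (Fin 2) (Fin 2) ℤ) * GAL.heckeRep ℓ j :=
    ⟨_, _, heckeRep_mul M hℓ hℓM γ i⟩
  unfold GAL.heckeCoc
  rw [dif_pos hex]
  obtain ⟨j, hj⟩ := hex.choose_spec
  exact (heckeRep_mul_unique M hℓ hℓM hj).2

/-- the permutation of `Option (Fin ℓ)` attached to `γ` -/
noncomputable def heckePerm (γ : Gamma0 M) : Equiv.Perm (Option (Fin ℓ)) :=
  ((idxT M hℓ hℓM).trans ((datumT M hℓ hℓM).perm γ)).trans (idxT M hℓ hℓM).symm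

/-- `α_i γ = γ_i α_{σ(i)}` for the master definitions. -/
theorem heckeCoc_spec (γ : Gamma0 M) (i : Option (Fin ℓ)) :
    GAL.heckeRep ℓ i * ((γ : SL(2, ℤ)) : Matrix (Fin 2) (Fin 2) ℤ) =
      (((GAL.heckeCoc M ℓ γ i : Gamma0 M) : SL(2, ℤ)) : Matrix (Fin 2) (Fin 2) ℤ) *
        GAL.heckeRep ℓ (heckePerm M hℓ hℓM γ i) := by
  rw [heckeCoc_eq M hℓ hℓM]
  exact heckeRep_mul M hℓ hℓM γ i

theorem heckeCohFun_eq {A : Type*} [AddCommGroup A] (P : Additive (Gamma0 M) →+ A)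
    (γ : Gamma0 M) :
    GAL.heckeCohFun M ℓ P γ = cohT M hℓ hℓM A P (Additive.ofMul γ) := by
  unfold GAL.heckeCohFun cohT
  rw [HeckeDatum.T_apply]
  simp only [heckeCoc_eq M hℓ hℓM]
  exact Equiv.sum_comp (idxT M hℓ hℓM)
    (fun x => P (Additive.ofMul ((datumT M hℓ hℓM).coc γ x)))

theorem heckeCoh_eq_cohT {A : Type*} [AddCommGroup A] (P : Additive (Gamma0 M) →+ A) :
    GAL.heckeCoh M ℓ P = cohT M hℓ hℓM A P := by
  have hex : ∃ Q : Additive (Gamma0 M) →+ A,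
      ∀ γ, Q (Additive.ofMul γ) = GAL.heckeCohFun M ℓ P γ :=
    ⟨cohT M hℓ hℓM A P, fun γ => (heckeCohFun_eq M hℓ hℓM P γ).symm⟩
  unfold GAL.heckeCoh
  rw [dif_pos hex]
  refine AddMonoidHom.ext fun γ => ?_
  obtain ⟨γ, rfl⟩ := Additive.ofMul.surjective γ
  rw [hex.choose_spec γ, heckeCohFun_eq M hℓ hℓM]

end Fermat.Agent.GAL.HK

namespace Fermat.Agent.GAL

/-- (HK1) -/
theorem heckeCoh_apply (M ℓ : ℕ) [NeZero M] (hℓ : ℓ.Prime) (hℓM : ¬ ℓ ∣ M) {A : Type*}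
    [AddCommGroup A] (P : Additive (Gamma0 M) →+ A) (γ : Gamma0 M) :
    heckeCoh M ℓ P (Additive.ofMul γ) = heckeCohFun M ℓ P γ := by
  rw [HK.heckeCoh_eq_cohT M hℓ hℓM, HK.heckeCohFun_eq M hℓ hℓM]

end Fermat.Agent.GAL
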