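import Fermat.Agent.GAL.HK.CohCore
import Fermat.Agent.GAL.HK.EigenPeriod

/-!
# GAL / HK3 : `coh_eigen` (Master.lean, block HK)
-/

set_option autoImplicit false

open ModularCurve CongruenceSubgroup
open scoped MatrixGroups

namespace Fermat.Agent.GAL

/-- The Hecke eigenvalues `a_ℓ` (`ℓ ∤ N`) of a normalised eigenform are algebraic integers. -/
theorem HK.isIntegral_qCoeff {N : ℕ} [NeZero N] {g : CuspForm (Gamma0 N) 2}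
    (hg : g.IsNormalizedEigenform) {ℓ : ℕ} (hℓ : ℓ.Prime) (hℓN : ¬ ℓ ∣ N) :
    IsIntegral ℤ (ModularFormClass.qCoeff g ℓ) := by
  obtain ⟨P, hpar, hne, h⟩ := HK.exists_period_eigen (dvd_refl N) hg
  exact HK.isIntegral_of_heckeCoh_eq hpar hne hℓ hℓN _ (h ℓ hℓ hℓN)

/-- (HK3 = COH) **the eigensystem of `g` modulo `φ` occurs in `Hom_par(Γ₀(M), κ)`**. -/
theorem coh_eigen {N M : ℕ} [NeZero M] (hNM : N ∣ M) {g : CuspForm (Gamma0 N) 2}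
    (hg : g.IsNormalizedEigenform) {κ : Type} [Field κ] (φ : integralClosure ℤ ℂ →+* κ) :
    ∃ a : ℕ → integralClosure ℤ ℂ,
      (∀ ℓ : ℕ, ℓ.Prime → ¬ ℓ ∣ N → (a ℓ : ℂ) = ModularFormClass.qCoeff g ℓ) ∧
      ∃ P : Additive (Gamma0 M) →+ κ, Period.IsParabolicHom (Gamma0 M) P ∧ P ≠ 0 ∧
        ∀ ℓ : ℕ, ℓ.Prime → ¬ ℓ ∣ M → heckeCoh M ℓ P = φ (a ℓ) • P := by
  classical
  have hN : NeZero N := ⟨fun h0 => NeZero.ne M (by rw [h0] at hNM; exact zero_dvd_iff.mp hNM)⟩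
  let a : ℕ → integralClosure ℤ ℂ := fun ℓ =>
    if h : IsIntegral ℤ (ModularFormClass.qCoeff g ℓ) then ⟨ModularFormClass.qCoeff g ℓ, h⟩ else 0
  have ha : ∀ ℓ : ℕ, ℓ.Prime → ¬ ℓ ∣ N → (a ℓ : ℂ) = ModularFormClass.qCoeff g ℓ := by
    intro ℓ hℓ hℓN
    simp only [a]
    rw [dif_pos (HK.isIntegral_qCoeff hg hℓ hℓN)]
  refine ⟨a, ha, ?_⟩
  obtain ⟨Q, hpar, hne, h⟩ := HK.exists_period_eigen hNM hg
  refine HK.exists_heckeCoh_eigen hpar hne a ?_ φ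
  intro ℓ hℓ hℓM
  rw [ha ℓ hℓ (fun hd => hℓM (hd.trans hNM))]
  exact h ℓ hℓ hℓM

end Fermat.Agent.GAL
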