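import Fermat.Agent.GAL.HeckeCoh
import Fermat.Agent.GAL.HK.Cycle

/-!
# GAL / HK2 : the Hecke datum of `T_ℓ` on `Γ₀(M)` (`ℓ ∤ M`), for helper1's `heckeRep`, `heckeCoc`
-/

set_option autoImplicit false

open CongruenceSubgroup Matrix
open scoped MatrixGroups

namespace Fermat.Agent.GAL.HK

theorem det_heckeRep (ℓ : ℕ) (j : Option (Fin ℓ)) : (heckeRep ℓ j).det = ℓ := by
  cases j <;> simp [heckeRep, Matrix.det_fin_two_of]

/-- **Hermite normal form** of an integral matrix of prime determinant. -/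
theorem exists_hermite {ℓ : ℕ} (hℓ : ℓ.Prime) (A : Matrix (Fin 2) (Fin 2) ℤ) (hA : A.det = ℓ) :
    ∃ (g : SL(2, ℤ)) (j : Option (Fin ℓ)), A = (g : Matrix (Fin 2) (Fin 2) ℤ) * heckeRep ℓ j := by
  have hℓ0 : (ℓ : ℤ) ≠ 0 := by exact_mod_cast hℓ.ne_zero
  have hℓp : Prime (ℓ : ℤ) := Nat.prime_iff_prime_int.mp hℓ
  rw [Matrix.det_fin_two] at hA
  set a := A 0 0 with ha
  set b := A 0 1 with hb
  set c := A 1 0 with hc
  set d := A 1 1 with hd
  have hAeq : A = !![a, b; c, d] := Matrix.eta_fin_two A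
  by_cases hac : (ℓ : ℤ) ∣ a ∧ (ℓ : ℤ) ∣ c
  · obtain ⟨⟨a', ha'⟩, ⟨c', hc'⟩⟩ := hac
    refine ⟨⟨!![a', b; c', d], ?_⟩, none, ?_⟩
    · rw [Matrix.det_fin_two_of]
      apply mul_left_cancel₀ hℓ0
      rw [ha', hc'] at hA
      linear_combination hA
    · rw [hAeq]
      simp only [heckeRep, Matrix.mul_fin_two, ha', hc']
      congr 1 <;> ring_nf
  · -- find `t` with `b ≡ a t`, `d ≡ c t`
    have hex : ∃ t : ℤ, (ℓ : ℤ) ∣ b - a * t ∧ (ℓ : ℤ) ∣ d - c * t := by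
      by_cases haℓ : (ℓ : ℤ) ∣ a
      · have hcℓ : ¬ (ℓ : ℤ) ∣ c := fun h => hac ⟨haℓ, h⟩
        have hcop : IsCoprime c (ℓ : ℤ) := ((hℓp.coprime_iff_not_dvd).2 hcℓ).symm
        obtain ⟨u, v, huv⟩ := hcop
        -- u c + v ℓ = 1
        refine ⟨u * d, ?_, ?_⟩
        · -- b = b (u c + v ℓ) = u (b c) + ..., b c = a d - ℓ
          obtain ⟨a', ha'⟩ := haℓ
          refine ⟨b * v - u , ?_⟩
          have : b = b * (u * c + v * ℓ) := by rw [huv, mul_one]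
          linear_combination this - u * hA
        · refine ⟨d * v, ?_⟩
          have : d = d * (u * c + v * ℓ) := by rw [huv, mul_one]
          linear_combination this
      · have hcop : IsCoprime a (ℓ : ℤ) := ((hℓp.coprime_iff_not_dvd).2 haℓ).symm
        obtain ⟨u, v, huv⟩ := hcop
        refine ⟨u * b, ?_, ?_⟩
        · refine ⟨b * v, ?_⟩
          have : b = b * (u * a + v * ℓ) := by rw [huv, mul_one]
          linear_combination this
        · refine ⟨d * v + u, ?_⟩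
          have : d = d * (u * a + v * ℓ) := by rw [huv, mul_one]
          linear_combination this + u * hA
    obtain ⟨t, ht1, ht2⟩ := hex
    -- reduce `t` modulo `ℓ`
    set t' : ℤ := t % ℓ with ht'
    have ht'0 : 0 ≤ t' := Int.emod_nonneg _ hℓ0
    have ht'1 : t' < ℓ := Int.emod_lt_of_pos _ (by exact_mod_cast hℓ.pos)
    have htt' : (ℓ : ℤ) ∣ t - t' := Int.dvd_self_sub_emod
    have h1 : (ℓ : ℤ) ∣ b - a * t' := by
      have : b - a * t' = (b - a * t) + a * (t - t') := by ring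
      rw [this]; exact dvd_add ht1 (Dvd.dvd.mul_left htt' a)
    have h2 : (ℓ : ℤ) ∣ d - c * t' := by
      have : d - c * t' = (d - c * t) + c * (t - t') := by ring
      rw [this]; exact dvd_add ht2 (Dvd.dvd.mul_left htt' c)
    obtain ⟨b', hb'⟩ := h1
    obtain ⟨d', hd'⟩ := h2
    have hnat : (t'.toNat : ℤ) = t' := Int.toNat_of_nonneg ht'0
    have hlt : t'.toNat < ℓ := by
      have : (t'.toNat : ℤ) < ℓ := by rw [hnat]; exact ht'1
      exact_mod_cast this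
    refine ⟨⟨!![a, b'; c, d'], ?_⟩, some ⟨t'.toNat, hlt⟩, ?_⟩
    · rw [Matrix.det_fin_two_of]
      apply mul_left_cancel₀ hℓ0
      linear_combination hA - a * hd' + c * hb'
    · rw [hAeq]
      have e1 : b = a * t' + b' * ℓ := by linear_combination hb'
      have e2 : d = c * t' + d' * ℓ := by linear_combination hd'
      simp only [heckeRep, Matrix.mul_fin_two, hnat, mul_one, mul_zero, add_zero, ← e1, ← e2]

theorem sl_det_eq (g : SL(2, ℤ)) : g 0 0 * g 1 1 - g 0 1 * g 1 0 = 1 := by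
  have := g.det_coe
  rwa [Matrix.det_fin_two] at this

/-- Uniqueness of the Hermite normal form. -/
theorem hermite_unique {ℓ : ℕ} (hℓ : ℓ.Prime) {g g' : SL(2, ℤ)} {j j' : Option (Fin ℓ)}
    (h : (g : Matrix (Fin 2) (Fin 2) ℤ) * heckeRep ℓ j =
      (g' : Matrix (Fin 2) (Fin 2) ℤ) * heckeRep ℓ j') : g = g' ∧ j = j' := by
  have hℓ0 : (ℓ : ℤ) ≠ 0 := by exact_mod_cast hℓ.ne_zero
  have hℓp : Prime (ℓ : ℤ) := Nat.prime_iff_prime_int.mp hℓ
  have hnu : ¬ (ℓ : ℤ) ∣ 1 := fun h => hℓp.not_isUnit (isUnit_of_dvd_one h)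
  have hj : j = j' := by
    have h00 := congrFun (congrFun h 0) 0
    have h01 := congrFun (congrFun h 0) 1
    have h10 := congrFun (congrFun h 1) 0
    have h11 := congrFun (congrFun h 1) 1
    have hd := sl_det_eq g
    have hd' := sl_det_eq g'
    cases j with
    | none =>
      cases j' with
      | none => rfl
      | some t =>
        exfalso
        simp only [heckeRep, Matrix.mul_apply, Fin.sum_univ_two, Matrix.of_apply, Matrix.cons_val_zero,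
          Matrix.cons_val_one, Matrix.cons_val', Matrix.cons_val_fin_one, mul_zero, mul_one, add_zero,
          zero_add] at h00 h10
        apply hnu
        refine ⟨g 0 0 * g' 1 1 - g' 0 1 * g 1 0, ?_⟩
        linear_combination (-1 : ℤ) * hd' - g' 1 1 * h00 + g' 0 1 * h10
    | some s =>
      cases j' with
      | none =>
        exfalso
        simp only [heckeRep, Matrix.mul_apply, Fin.sum_univ_two, Matrix.of_apply, Matrix.cons_val_zero,
          Matrix.cons_val_one, Matrix.cons_val', Matrix.cons_val_fin_one, mul_zero, mul_one, add_zero,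
          zero_add] at h00 h10
        apply hnu
        refine ⟨g' 0 0 * g 1 1 - g 0 1 * g' 1 0, ?_⟩
        linear_combination (-1 : ℤ) * hd + g 1 1 * h00 - g 0 1 * h10
      | some t =>
        simp only [heckeRep, Matrix.mul_apply, Fin.sum_univ_two, Matrix.of_apply, Matrix.cons_val_zero,
          Matrix.cons_val_one, Matrix.cons_val', Matrix.cons_val_fin_one, mul_zero, mul_one, add_zero,
          zero_add] at h00 h10 h01 h11
        have hdvd : (ℓ : ℤ) ∣ (s : ℤ) - (t : ℤ) := by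
          refine ⟨g 1 1 * (g' 0 1 - g 0 1) - g 0 1 * (g' 1 1 - g 1 1), ?_⟩
          have e1 : g 0 0 * ((s : ℤ) - t) = (g' 0 1 - g 0 1) * ℓ := by
            rw [← h00] at h01; linear_combination h01
          have e2 : g 1 0 * ((s : ℤ) - t) = (g' 1 1 - g 1 1) * ℓ := by
            rw [← h10] at h11; linear_combination h11
          linear_combination (-((s : ℤ) - t)) * hd + g 1 1 * e1 - g 0 1 * e2 +
            (0 : ℤ) * hd'
        have habs : |(s : ℤ) - (t : ℤ)| < ℓ := by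
          have hs := s.2
          have ht := t.2
          rw [abs_lt]
          constructor <;> omega
        have h0 := Int.eq_zero_of_abs_lt_dvd hdvd habs
        congr 1
        apply Fin.ext
        omega
  subst hj
  refine ⟨?_, rfl⟩
  have h2 := congrArg (· * (heckeRep ℓ j).adjugate) h
  simp only [Matrix.mul_assoc, Matrix.mul_adjugate, det_heckeRep] at h2
  apply Subtype.ext
  ext a b
  have h3 := congrFun (congrFun h2 a) b
  simp only [Matrix.mul_smul, Matrix.mul_one, Matrix.smul_apply, smul_eq_mul] at h3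
  exact mul_left_cancel₀ hℓ0 h3

theorem mem_Gamma0_iff_dvd_coc {M : ℕ} (g : SL(2, ℤ)) : g ∈ Gamma0 M ↔ (M : ℤ) ∣ g 1 0 := by
  rw [Gamma0_mem, ZMod.intCast_zmod_eq_zero_iff_dvd]

theorem mem_Gamma0_of_eq {M ℓ : ℕ} (hℓM : Nat.Coprime M ℓ) {γ g : SL(2, ℤ)} (hγ : γ ∈ Gamma0 M)
    {i j : Option (Fin ℓ)}
    (h : heckeRep ℓ i * (γ : Matrix (Fin 2) (Fin 2) ℤ) =
      (g : Matrix (Fin 2) (Fin 2) ℤ) * heckeRep ℓ j) : g ∈ Gamma0 M := by
  rw [mem_Gamma0_iff_dvd_coc] at hγ ⊢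
  have hcop : IsCoprime (M : ℤ) (ℓ : ℤ) := Nat.isCoprime_iff_coprime.mpr hℓM
  have h10 := congrFun (congrFun h 1) 0
  cases i <;> cases j <;>
    simp only [heckeRep, Matrix.mul_apply, Fin.sum_univ_two, Matrix.of_apply, Matrix.cons_val_zero,
      Matrix.cons_val_one, Matrix.cons_val', Matrix.cons_val_fin_one, mul_zero, mul_one, add_zero,
      zero_add, zero_mul, one_mul] at h10
  · exact hcop.dvd_of_dvd_mul_right (h10 ▸ hγ)
  · exact h10 ▸ hγ
  · exact hcop.dvd_of_dvd_mul_right (h10 ▸ Dvd.dvd.mul_left hγ _)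
  · exact h10 ▸ Dvd.dvd.mul_left hγ _

section datum

variable {M ℓ : ℕ}

theorem exists_heckeCoc (hℓ : ℓ.Prime) (hℓM : ¬ ℓ ∣ M) (γ : Gamma0 M) (i : Option (Fin ℓ)) :
    ∃ γ' : Gamma0 M, ∃ j : Option (Fin ℓ),
      heckeRep ℓ i * ((γ : SL(2, ℤ)) : Matrix (Fin 2) (Fin 2) ℤ) =
        ((γ' : SL(2, ℤ)) : Matrix (Fin 2) (Fin 2) ℤ) * heckeRep ℓ j := by
  obtain ⟨g, j, hg⟩ := exists_hermite hℓ (heckeRep ℓ i * ((γ : SL(2, ℤ)) : Matrix (Fin 2) (Fin 2) ℤ))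
    (by rw [Matrix.det_mul, det_heckeRep, Matrix.SpecialLinearGroup.det_coe, mul_one])
  have hcop : Nat.Coprime M ℓ := ((Nat.Prime.coprime_iff_not_dvd hℓ).2 hℓM).symm
  exact ⟨⟨g, mem_Gamma0_of_eq hcop γ.2 hg⟩, j, hg⟩

open Classical in
/-- the index `j` with `α_i γ = γ_i α_j`. -/
noncomputable def heckeIdx (M ℓ : ℕ) (γ : Gamma0 M) (i : Option (Fin ℓ)) : Option (Fin ℓ) :=
  if h : ∃ j : Option (Fin ℓ), heckeRep ℓ i * ((γ : SL(2, ℤ)) : Matrix (Fin 2) (Fin 2) ℤ) =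
        ((heckeCoc M ℓ γ i : SL(2, ℤ)) : Matrix (Fin 2) (Fin 2) ℤ) * heckeRep ℓ j
  then h.choose else i

/-- **SPEC** of `heckeCoc`. -/
theorem heckeCoc_spec_idx (hℓ : ℓ.Prime) (hℓM : ¬ ℓ ∣ M) (γ : Gamma0 M) (i : Option (Fin ℓ)) :
    heckeRep ℓ i * ((γ : SL(2, ℤ)) : Matrix (Fin 2) (Fin 2) ℤ) =
      ((heckeCoc M ℓ γ i : SL(2, ℤ)) : Matrix (Fin 2) (Fin 2) ℤ) *
        heckeRep ℓ (heckeIdx M ℓ γ i) := by
  have h1 := exists_heckeCoc hℓ hℓM γ i
  have h2 : ∃ j : Option (Fin ℓ), heckeRep ℓ i * ((γ : SL(2, ℤ)) : Matrix (Fin 2) (Fin 2) ℤ) =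
        ((heckeCoc M ℓ γ i : SL(2, ℤ)) : Matrix (Fin 2) (Fin 2) ℤ) * heckeRep ℓ j := by
    rw [heckeCoc, dif_pos h1]
    exact h1.choose_spec
  rw [heckeIdx, dif_pos h2]
  exact h2.choose_spec

/-- Uniqueness: any decomposition computes `heckeCoc` and `heckeIdx`. -/
theorem heckeCoc_eq_of (hℓ : ℓ.Prime) (hℓM : ¬ ℓ ∣ M) {γ γ' : Gamma0 M} {i j : Option (Fin ℓ)}
    (h : heckeRep ℓ i * ((γ : SL(2, ℤ)) : Matrix (Fin 2) (Fin 2) ℤ) =
      ((γ' : SL(2, ℤ)) : Matrix (Fin 2) (Fin 2) ℤ) * heckeRep ℓ j) :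
    heckeCoc M ℓ γ i = γ' ∧ heckeIdx M ℓ γ i = j := by
  have h1 := heckeCoc_spec_idx hℓ hℓM γ i
  rw [h] at h1
  obtain ⟨h2, h3⟩ := hermite_unique hℓ h1
  exact ⟨Subtype.ext h2.symm, h3.symm⟩

theorem heckeCoc_mul_aux (hℓ : ℓ.Prime) (hℓM : ¬ ℓ ∣ M) (γ δ : Gamma0 M) (i : Option (Fin ℓ)) :
    heckeCoc M ℓ (γ * δ) i = heckeCoc M ℓ γ i * heckeCoc M ℓ δ (heckeIdx M ℓ γ i) ∧
      heckeIdx M ℓ (γ * δ) i = heckeIdx M ℓ δ (heckeIdx M ℓ γ i) := by
  apply heckeCoc_eq_of hℓ hℓM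
  simp only [Subgroup.coe_mul, Matrix.SpecialLinearGroup.coe_mul]
  rw [← Matrix.mul_assoc, heckeCoc_spec_idx hℓ hℓM γ i, Matrix.mul_assoc,
    heckeCoc_spec_idx hℓ hℓM δ, Matrix.mul_assoc]

theorem heckeIdx_one (hℓ : ℓ.Prime) (hℓM : ¬ ℓ ∣ M) (i : Option (Fin ℓ)) :
    heckeIdx M ℓ 1 i = i :=
  (heckeCoc_eq_of hℓ hℓM (γ := 1) (γ' := 1) (i := i) (j := i) (by simp)).2

/-- `heckeIdx γ` as a permutation. -/
noncomputable def idxPerm (hℓ : ℓ.Prime) (hℓM : ¬ ℓ ∣ M) (γ : Gamma0 M) :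
    Equiv.Perm (Option (Fin ℓ)) where
  toFun := heckeIdx M ℓ γ
  invFun := heckeIdx M ℓ γ⁻¹
  left_inv i := by
    rw [← (heckeCoc_mul_aux hℓ hℓM γ γ⁻¹ i).2, mul_inv_cancel, heckeIdx_one hℓ hℓM]
  right_inv i := by
    rw [← (heckeCoc_mul_aux hℓ hℓM γ⁻¹ γ i).2, inv_mul_cancel, heckeIdx_one hℓ hℓM]

@[simp] theorem idxPerm_apply (hℓ : ℓ.Prime) (hℓM : ¬ ℓ ∣ M) (γ : Gamma0 M)
    (i : Option (Fin ℓ)) : idxPerm hℓ hℓM γ i = heckeIdx M ℓ γ i := rfl

/-- The Hecke datum of `T_ℓ` on `Γ₀(M)`. -/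
noncomputable def heckeDatum (hℓ : ℓ.Prime) (hℓM : ¬ ℓ ∣ M) : HeckeDatum (Gamma0 M) where
  ι := Option (Fin ℓ)
  perm := idxPerm hℓ hℓM
  coc := heckeCoc M ℓ
  perm_mul γ δ x := (heckeCoc_mul_aux hℓ hℓM γ δ x).2
  coc_mul γ δ x := (heckeCoc_mul_aux hℓ hℓM γ δ x).1

end datum

end Fermat.Agent.GAL.HK
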