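import Fermat.Agent.GAL.HK.Eigen

/-!
# GAL / HK : reduction of a system of eigen-equations (pure algebra)
-/

set_option autoImplicit false

namespace Fermat.Agent.GAL.HK

open Matrix

/-- **Reduction of linear systems.**  A (possibly infinite) homogeneous linear system with
coefficients in a commutative ring `𝕋 ⊆ C` which has a nonzero solution over the field `C` has a
nonzero solution over every field `K` receiving a ring hom from `𝕋`. -/
theorem exists_solution_of_ringHom {𝕋 C K : Type*} [CommRing 𝕋] [Field C] [Field K]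
    (ι : 𝕋 →+* C) (hι : Function.Injective ι) (ψ : 𝕋 →+* K) {r : ℕ} {I : Type*}
    (B : I → Matrix (Fin r) (Fin r) 𝕋) (c : Fin r → C) (hc : c ≠ 0)
    (h : ∀ i, (B i).map ι *ᵥ c = 0) :
    ∃ v : Fin r → K, v ≠ 0 ∧ ∀ i, (B i).map ψ *ᵥ v = 0 := by
  classical
  -- the submodule spanned by the rows
  let W : Submodule 𝕋 (Fin r → 𝕋) := Submodule.span 𝕋 (Set.range fun ik : I × Fin r => B ik.1 ik.2)
  -- the functional given by `c`
  let F : (Fin r → 𝕋) →+ C :=
    { toFun := fun x => ∑ j, ι (x j) * c j
      map_zero' := by simp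
      map_add' := fun x y => by simp [add_mul, Finset.sum_add_distrib] }
  have hFsmul : ∀ (t : 𝕋) (x : Fin r → 𝕋), F (t • x) = ι t * F x := by
    intro t x
    show ∑ j, ι ((t • x) j) * c j = ι t * ∑ j, ι (x j) * c j
    rw [Finset.mul_sum]
    refine Finset.sum_congr rfl fun j _ => ?_
    simp [mul_assoc]
  have hFW : ∀ x ∈ W, F x = 0 := by
    intro x hx
    induction hx using Submodule.span_induction with
    | mem x hx =>
      obtain ⟨⟨i, k⟩, rfl⟩ := hx
      have := congrFun (h i) k
      show ∑ j, ι (B i k j) * c j = 0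
      simpa [Matrix.mulVec, dotProduct] using this
    | zero => simp
    | add x y _ _ hx hy => rw [map_add, hx, hy, add_zero]
    | smul t x _ hx => rw [hFsmul, hx, mul_zero]
  obtain ⟨j₀, hj₀⟩ : ∃ j, c j ≠ 0 := by
    by_contra hcon
    push Not at hcon
    exact hc (funext hcon)
  have hFe : ∀ j, F (Pi.single j 1) = c j := by
    intro j
    show ∑ j', ι ((Pi.single j (1 : 𝕋) : Fin r → 𝕋) j') * c j' = c j
    rw [Finset.sum_eq_single j]
    · simp
    · intro b _ hb
      simp [Pi.single_eq_of_ne hb]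
    · simp
  have hfaith : ∀ t : 𝕋, (∀ m : (Fin r → 𝕋) ⧸ W, t • m = 0) → t = 0 := by
    intro t ht
    have h1 := ht (Submodule.Quotient.mk (Pi.single j₀ 1))
    rw [← Submodule.Quotient.mk_smul, Submodule.Quotient.mk_eq_zero] at h1
    have h2 := hFW _ h1
    rw [hFsmul, hFe] at h2
    have h3 : ι t = 0 := (mul_eq_zero.1 h2).resolve_right hj₀
    exact hι (by rw [h3, map_zero])
  obtain ⟨φ, hφ0, hφ⟩ := exists_functional_of_faithful hfaith ψ
  have hexp : ∀ x : Fin r → 𝕋, φ (Submodule.Quotient.mk x) =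
      ∑ j, ψ (x j) * φ (Submodule.Quotient.mk (Pi.single j 1)) := by
    intro x
    have hx : x = ∑ j, x j • (Pi.single j (1 : 𝕋) : Fin r → 𝕋) := by
      funext k
      simp [Finset.sum_apply, Pi.single_apply]
    conv_lhs => rw [hx]
    have : (Submodule.Quotient.mk (∑ j, x j • (Pi.single j (1 : 𝕋) : Fin r → 𝕋)) :
        (Fin r → 𝕋) ⧸ W) = ∑ j, x j • Submodule.Quotient.mk (Pi.single j (1 : 𝕋)) := by
      rw [← Submodule.mkQ_apply, map_sum]
      rfl
    rw [this, map_sum]
    exact Finset.sum_congr rfl fun j _ => hφ _ _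
  refine ⟨fun j => φ (Submodule.Quotient.mk (Pi.single j 1)), ?_, ?_⟩
  · intro hv
    apply hφ0
    ext m
    obtain ⟨x, rfl⟩ := Submodule.Quotient.mk_surjective W m
    rw [hexp]
    simp only [AddMonoidHom.zero_apply]
    refine Finset.sum_eq_zero fun j _ => ?_
    rw [congrFun hv j]
    simp
  · intro i
    funext k
    have h1 : (Submodule.Quotient.mk (B i k) : (Fin r → 𝕋) ⧸ W) = 0 := by
      rw [Submodule.Quotient.mk_eq_zero]
      exact Submodule.subset_span ⟨(i, k), rfl⟩
    have h2 := hexp (B i k)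
    rw [h1, map_zero] at h2
    simpa [Matrix.mulVec, dotProduct] using h2.symm

/-- An eigenvalue of an integer matrix is an algebraic integer. -/
theorem isIntegral_of_mulVec_eq {C : Type*} [Field C] {r : ℕ} (A : Matrix (Fin r) (Fin r) ℤ)
    (c : Fin r → C) (hc : c ≠ 0) (a : C) (h : A.map (Int.castRingHom C) *ᵥ c = a • c) :
    IsIntegral ℤ a := by
  have hdet : (Matrix.scalar (Fin r) a - A.map (Int.castRingHom C)).det = 0 := by
    rw [← Matrix.exists_mulVec_eq_zero_iff]
    refine ⟨c, hc, ?_⟩
    rw [Matrix.sub_mulVec, h]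
    simp [Matrix.scalar_apply]
  refine ⟨A.charpoly, A.charpoly_monic, ?_⟩
  rw [← Polynomial.eval_map]
  have : A.charpoly.map (algebraMap ℤ C) = (A.map (Int.castRingHom C)).charpoly := by
    rw [Matrix.charpoly_map]
    rfl
  rw [this, Matrix.eval_charpoly]
  exact hdet

/-- **Reduction of eigensystems of integer matrices.** -/
theorem exists_eigen_of_ringHom {C K : Type*} [Field C] [Field K] {r : ℕ} {I : Type*}
    (A : I → Matrix (Fin r) (Fin r) ℤ) (a : I → integralClosure ℤ C)
    (φ : integralClosure ℤ C →+* K) (c : Fin r → C) (hc : c ≠ 0)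
    (h : ∀ i, (A i).map (Int.castRingHom C) *ᵥ c = (a i : C) • c) :
    ∃ v : Fin r → K, v ≠ 0 ∧ ∀ i, (A i).map (Int.castRingHom K) *ᵥ v = φ (a i) • v := by
  classical
  obtain ⟨v, hv0, hv⟩ := exists_solution_of_ringHom
    (algebraMap (integralClosure ℤ C) C) Subtype.val_injective φ
    (fun i => (A i).map (Int.castRingHom (integralClosure ℤ C)) - Matrix.scalar (Fin r) (a i))
    c hc (by
      intro i
      have h1 : ((A i).map (Int.castRingHom (integralClosure ℤ C)) -
          Matrix.scalar (Fin r) (a i)).map (algebraMap (integralClosure ℤ C) C) =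
          (A i).map (Int.castRingHom C) - Matrix.scalar (Fin r) (a i : C) := by
        ext k l
        by_cases hkl : k = l
        · subst hkl
          simp [Matrix.scalar_apply]
        · simp [Matrix.scalar_apply, hkl]
      rw [h1, Matrix.sub_mulVec, h i]
      simp [Matrix.scalar_apply])
  refine ⟨v, hv0, fun i => ?_⟩
  have h1 : ((A i).map (Int.castRingHom (integralClosure ℤ C)) -
      Matrix.scalar (Fin r) (a i)).map φ =
      (A i).map (Int.castRingHom K) - Matrix.scalar (Fin r) (φ (a i)) := by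
    ext k l
    by_cases hkl : k = l
    · subst hkl
      simp [Matrix.scalar_apply]
    · simp [Matrix.scalar_apply, hkl]
  have h2 := hv i
  rw [h1, Matrix.sub_mulVec, sub_eq_zero] at h2
  rw [h2]
  simp [Matrix.scalar_apply]

end Fermat.Agent.GAL.HK
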