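import Mathlib

/-!
# GAL / HK : the lattice `Hom(Γ, ℤ)` killing a set `S`, with a dual basis in `Γ`
-/

set_option autoImplicit false

namespace Fermat.Agent.GAL.HK

/-- **Dual bases.**  `Γ` a finitely generated group, `S ⊆ Γ`.  There are homomorphisms
`P j : Γ → ℤ` killing `S` and elements `g i ∈ Γ` with `P j (g i) = δ_ij` such that every
homomorphism `Q` from `Γ` to a torsion free abelian group killing `S` is `∑ j, P j (·) • Q (g j)`. -/
theorem exists_dual_basis (Γ : Type*) [Group Γ] [Group.FG Γ] (S : Set Γ) :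
    ∃ (r : ℕ) (P : Fin r → (Additive Γ →+ ℤ)) (g : Fin r → Γ),
      (∀ j, ∀ s ∈ S, P j (Additive.ofMul s) = 0) ∧
      (∀ i j, P j (Additive.ofMul (g i)) = if i = j then 1 else 0) ∧
      ∀ (A : Type) [AddCommGroup A] [IsAddTorsionFree A] (Q : Additive Γ →+ A),
        (∀ s ∈ S, Q (Additive.ofMul s) = 0) →
        ∀ γ : Γ, Q (Additive.ofMul γ) = ∑ j, P j (Additive.ofMul γ) • Q (Additive.ofMul (g j)) := by
  classical
  let G := Additive (Abelianization Γ)
  let π₀ : Additive Γ →+ G := MonoidHom.toAdditive (Abelianization.of (G := Γ))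
  have hπ₀ : Function.Surjective π₀ := by
    intro x
    obtain ⟨y, hy⟩ := QuotientGroup.mk_surjective (s := commutator Γ) (Additive.toMul x)
    exact ⟨Additive.ofMul y, hy⟩
  have hfg : Group.FG (Abelianization Γ) := QuotientGroup.fg _
  have hfin : Module.Finite ℤ G := Module.Finite.iff_addGroup_fg.mpr inferInstance
  let W : Submodule ℤ G := Submodule.span ℤ ((fun s : Γ => π₀ (Additive.ofMul s)) '' S)
  let H := G ⧸ W
  let H' := H ⧸ Submodule.torsion ℤ H
  let q : G →ₗ[ℤ] H' := (Submodule.mkQ (Submodule.torsion ℤ H)).comp (Submodule.mkQ W)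
  have hq : Function.Surjective q :=
    (Submodule.mkQ_surjective _).comp (Submodule.mkQ_surjective W)
  let π : Additive Γ →+ H' := q.toAddMonoidHom.comp π₀
  have hπ : Function.Surjective π := hq.comp hπ₀
  let b := Module.finBasis ℤ H'
  choose g' hg' using fun i => hπ (b i)
  refine ⟨Module.finrank ℤ H', fun j => (b.coord j).toAddMonoidHom.comp π,
    fun i => Additive.toMul (g' i), ?_, ?_, ?_⟩
  · intro j s hs
    have h1 : π (Additive.ofMul s) = 0 := by
      show Submodule.mkQ (Submodule.torsion ℤ H) (Submodule.mkQ W (π₀ (Additive.ofMul s))) = 0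
      have : Submodule.mkQ W (π₀ (Additive.ofMul s)) = 0 := by
        rw [Submodule.mkQ_apply, Submodule.Quotient.mk_eq_zero]
        exact Submodule.subset_span ⟨s, hs, rfl⟩
      rw [this, map_zero]
    show b.coord j (π (Additive.ofMul s)) = 0
    rw [h1, map_zero]
  · intro i j
    show b.coord j (π (g' i)) = _
    rw [hg' i, Module.Basis.coord_apply, Module.Basis.repr_self, Finsupp.single_apply]
  · intro A _ _ Q hQ γ
    -- factor `Q` through `π`
    let Q₀ : G →ₗ[ℤ] A := (MonoidHom.toAdditiveLeft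
      (Abelianization.lift (AddMonoidHom.toMultiplicativeRight Q))).toIntLinearMap
    have hQ₀ : ∀ x : Additive Γ, Q₀ (π₀ x) = Q x := by
      intro x
      show Multiplicative.toAdd (Abelianization.lift (AddMonoidHom.toMultiplicativeRight Q)
        (Abelianization.of (Additive.toMul x))) = Q x
      rw [Abelianization.lift_apply_of]
      rfl
    have hW : W ≤ LinearMap.ker Q₀ := by
      rw [Submodule.span_le]
      rintro _ ⟨s, hs, rfl⟩
      show Q₀ (π₀ (Additive.ofMul s)) = 0
      rw [hQ₀, hQ s hs]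
    let Q₁ : H →ₗ[ℤ] A := W.liftQ Q₀ hW
    have htor : Submodule.torsion ℤ H ≤ LinearMap.ker Q₁ := by
      intro x hx
      obtain ⟨a, ha⟩ := (Submodule.mem_torsion_iff x).1 hx
      have h1 : (a : ℤ) • Q₁ x = 0 := by
        rw [← map_smul]
        have : (a : ℤ) • x = 0 := ha
        rw [this, map_zero]
      have ha0 : (a : ℤ) ≠ 0 := nonZeroDivisors.coe_ne_zero a
      exact (smul_eq_zero.1 h1).resolve_left ha0
    let Q₂ : H' →ₗ[ℤ] A := (Submodule.torsion ℤ H).liftQ Q₁ htor
    have hQ₂ : ∀ x : Additive Γ, Q₂ (π x) = Q x := by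
      intro x
      show Q₂ (Submodule.mkQ (Submodule.torsion ℤ H) (Submodule.mkQ W (π₀ x))) = Q x
      rw [Submodule.mkQ_apply, Submodule.mkQ_apply, Submodule.liftQ_apply, Submodule.liftQ_apply,
        hQ₀]
    have h1 : π (Additive.ofMul γ) = ∑ j, b.coord j (π (Additive.ofMul γ)) • b j := by
      simp only [Module.Basis.coord_apply]
      exact (b.sum_repr _).symm
    rw [← hQ₂, h1, map_sum]
    refine Finset.sum_congr rfl fun j _ => ?_
    rw [map_smul, ← hg' j, hQ₂]
    rfl

end Fermat.Agent.GAL.HK
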