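import Fermat.Agent.GAL.HK.CohBasic
import Fermat.Agent.GAL.HK.EigenRed
import Fermat.Agent.GAL.HK.FreeQuot
import Fermat.Agent.S22.Gamma0FG

/-!
# GAL / HK : reduction of Hecke eigensystems in `Hom_par(Γ₀(M), ·)` (abstract core of `coh_eigen`)
-/

set_option autoImplicit false

open ModularCurve CongruenceSubgroup Matrix
open scoped MatrixGroups

namespace Fermat.Agent.GAL.HK

/-- `γ ↦ ∑ j, P j γ • c j`. -/
noncomputable def comb {Γ : Type*} [Group Γ] {r : ℕ} (P : Fin r → (Additive Γ →+ ℤ)) {B : Type*}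
    [AddCommGroup B] (c : Fin r → B) : Additive Γ →+ B :=
  ∑ j, (zmultiplesHom B (c j)).comp (P j)

theorem comb_apply {Γ : Type*} [Group Γ] {r : ℕ} (P : Fin r → (Additive Γ →+ ℤ)) {B : Type*}
    [AddCommGroup B] (c : Fin r → B) (γ : Additive Γ) : comb P c γ = ∑ j, P j γ • c j := by
  simp [comb]

/-- A lattice with dual basis in `Hom_par(Γ₀(M), ℤ)`. -/
structure ParBasis (M : ℕ) where
  r : ℕ
  P : Fin r → (Additive (Gamma0 M) →+ ℤ)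
  g : Fin r → Gamma0 M
  par : ∀ j, Period.IsParabolicHom (Gamma0 M) (P j)
  dual : ∀ i j, P j (Additive.ofMul (g i)) = if i = j then 1 else 0
  exp : ∀ (A : Type) [AddCommGroup A] [IsAddTorsionFree A] (Q : Additive (Gamma0 M) →+ A),
    Period.IsParabolicHom (Gamma0 M) Q → Q = comb P fun j => Q (Additive.ofMul (g j))

theorem exists_parBasis (M : ℕ) [NeZero M] : Nonempty (ParBasis M) := by
  have : Group.FG (Gamma0 M) := (Group.fg_iff_subgroup_fg _).mpr (Fermat.Agent.S22.gamma0_fg M)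
  obtain ⟨r, P, g, h1, h2, h3⟩ := exists_dual_basis (Gamma0 M)
    {γ | ((γ : SL(2, ℤ)) : Matrix (Fin 2) (Fin 2) ℤ).trace ^ 2 = 4}
  refine ⟨⟨r, P, g, fun j γ hγ => h1 j γ hγ, h2, ?_⟩⟩
  intro A _ _ Q hQ
  refine AddMonoidHom.ext fun γ => ?_
  obtain ⟨γ, rfl⟩ := Additive.ofMul.surjective γ
  rw [comb_apply]
  exact h3 A Q (fun s hs => hQ s hs) γ

namespace ParBasis

variable {M : ℕ} (𝔅 : ParBasis M)

theorem comb_g {B : Type*} [AddCommGroup B] (c : Fin 𝔅.r → B) (i : Fin 𝔅.r) :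
    comb 𝔅.P c (Additive.ofMul (𝔅.g i)) = c i := by
  classical
  rw [comb_apply]
  simp only [𝔅.dual]
  rw [Finset.sum_eq_single i]
  · simp
  · intro j _ hj
    rw [if_neg (Ne.symm hj), zero_smul]
  · simp

theorem comb_par {B : Type*} [AddCommGroup B] (c : Fin 𝔅.r → B) :
    Period.IsParabolicHom (Gamma0 M) (comb 𝔅.P c) := by
  intro γ hγ
  rw [comb_apply]
  refine Finset.sum_eq_zero fun j _ => ?_
  rw [𝔅.par j γ hγ, zero_smul]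

/-- the integer matrix of `T_ℓ`. -/
noncomputable def mat (ℓ : ℕ) : Matrix (Fin 𝔅.r) (Fin 𝔅.r) ℤ :=
  fun i j => heckeCoh M ℓ (𝔅.P j) (Additive.ofMul (𝔅.g i))

theorem heckeCoh_comb [NeZero M] {ℓ : ℕ} (hℓ : ℓ.Prime) (hℓM : ¬ ℓ ∣ M) {B : Type*}
    [AddCommGroup B] (c : Fin 𝔅.r → B) :
    heckeCoh M ℓ (comb 𝔅.P c) = comb 𝔅.P fun i => ∑ j, 𝔅.mat ℓ i j • c j := by
  have hP : ∀ j, heckeCoh M ℓ (𝔅.P j) = comb 𝔅.P fun i => 𝔅.mat ℓ i j := fun j =>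
    𝔅.exp ℤ _ (heckeCoh_isParabolicHom M ℓ hℓ hℓM _ (𝔅.par j))
  refine AddMonoidHom.ext fun γ => ?_
  rw [comb, heckeCoh_sum hℓ hℓM]
  simp only [heckeCoh_comp hℓ hℓM, hP]
  simp only [AddMonoidHom.finsetSum_apply, AddMonoidHom.comp_apply, comb_apply,
    zmultiplesHom_apply, Finset.sum_smul, Finset.smul_sum, smul_eq_mul, mul_smul]
  rw [Finset.sum_comm]

end ParBasis

theorem ParBasis.mulVec_eq {M : ℕ} [NeZero M] (𝔅 : ParBasis M) {Q : Additive (Gamma0 M) →+ ℂ}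
    (hpar : Period.IsParabolicHom (Gamma0 M) Q) {ℓ : ℕ} (hℓ : ℓ.Prime)
    (hℓM : ¬ ℓ ∣ M) (a : ℂ) (h : heckeCoh M ℓ Q = a • Q) :
    (𝔅.mat ℓ).map (Int.castRingHom ℂ) *ᵥ (fun j => Q (Additive.ofMul (𝔅.g j))) =
      a • fun j => Q (Additive.ofMul (𝔅.g j)) := by
  have hQ := 𝔅.exp ℂ Q hpar
  funext i
  have h1 := DFunLike.congr_fun h (Additive.ofMul (𝔅.g i))
  rw [hQ, 𝔅.heckeCoh_comb hℓ hℓM, 𝔅.comb_g, ← hQ] at h1
  simp only [Matrix.mulVec, dotProduct, Matrix.map_apply, Int.coe_castRingHom, Pi.smul_apply,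
    smul_eq_mul]
  simpa [zsmul_eq_mul] using h1

theorem ParBasis.vec_ne_zero {M : ℕ} (𝔅 : ParBasis M) {Q : Additive (Gamma0 M) →+ ℂ}
    (hpar : Period.IsParabolicHom (Gamma0 M) Q) (hne : Q ≠ 0) :
    (fun j => Q (Additive.ofMul (𝔅.g j))) ≠ 0 := by
  intro h0
  apply hne
  rw [𝔅.exp ℂ Q hpar, h0]
  refine AddMonoidHom.ext fun γ => ?_
  simp [comb_apply]

/-- integrality of Hecke eigenvalues on `Hom_par(Γ₀(M), ℂ)`. -/
theorem isIntegral_of_heckeCoh_eq {M : ℕ} [NeZero M] {Q : Additive (Gamma0 M) →+ ℂ}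
    (hpar : Period.IsParabolicHom (Gamma0 M) Q) (hne : Q ≠ 0) {ℓ : ℕ} (hℓ : ℓ.Prime)
    (hℓM : ¬ ℓ ∣ M) (a : ℂ) (h : heckeCoh M ℓ Q = a • Q) : IsIntegral ℤ a := by
  obtain ⟨𝔅⟩ := exists_parBasis M
  exact isIntegral_of_mulVec_eq (𝔅.mat ℓ) _ (𝔅.vec_ne_zero hpar hne) a
    (𝔅.mulVec_eq hpar hℓ hℓM a h)

/-- **Reduction of eigensystems.** -/
theorem exists_heckeCoh_eigen {M : ℕ} [NeZero M] {Q : Additive (Gamma0 M) →+ ℂ}
    (hpar : Period.IsParabolicHom (Gamma0 M) Q) (hne : Q ≠ 0) (a : ℕ → integralClosure ℤ ℂ)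
    (h : ∀ ℓ : ℕ, ℓ.Prime → ¬ ℓ ∣ M → heckeCoh M ℓ Q = (a ℓ : ℂ) • Q)
    {κ : Type} [Field κ] (φ : integralClosure ℤ ℂ →+* κ) :
    ∃ P : Additive (Gamma0 M) →+ κ, Period.IsParabolicHom (Gamma0 M) P ∧ P ≠ 0 ∧
      ∀ ℓ : ℕ, ℓ.Prime → ¬ ℓ ∣ M → heckeCoh M ℓ P = φ (a ℓ) • P := by
  obtain ⟨𝔅⟩ := exists_parBasis M
  obtain ⟨v, hv0, hv⟩ := exists_eigen_of_ringHom
    (I := {ℓ : ℕ // ℓ.Prime ∧ ¬ ℓ ∣ M}) (fun ℓ => 𝔅.mat ℓ.1) (fun ℓ => a ℓ.1) φ _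
    (𝔅.vec_ne_zero hpar hne) (fun ℓ => 𝔅.mulVec_eq hpar ℓ.2.1 ℓ.2.2 _ (h ℓ.1 ℓ.2.1 ℓ.2.2))
  refine ⟨comb 𝔅.P v, 𝔅.comb_par v, ?_, ?_⟩
  · intro h0
    apply hv0
    funext i
    rw [← 𝔅.comb_g v i, h0]
    rfl
  · intro ℓ hℓ hℓM
    rw [𝔅.heckeCoh_comb hℓ hℓM]
    have h1 := hv ⟨ℓ, hℓ, hℓM⟩
    have h2 : (fun i => ∑ j, 𝔅.mat ℓ i j • v j) = φ (a ℓ) • v := by
      rw [← h1]
      funext i
      simp [Matrix.mulVec, dotProduct, zsmul_eq_mul]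
    rw [h2]
    refine AddMonoidHom.ext fun γ => ?_
    simp only [comb_apply, AddMonoidHom.smul_apply, Pi.smul_apply, smul_eq_mul, zsmul_eq_mul]
    rw [Finset.mul_sum]
    refine Finset.sum_congr rfl fun j _ => ?_
    ring

end Fermat.Agent.GAL.HK
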