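import Fermat.Agent.GAL.HK.RelAlg
import Fermat.Agent.GAL.HK.FreeQuot
import Fermat.Agent.GAL.HK.CohBasic
import Fermat.Agent.GAL.HK.Bridge
import Fermat.Agent.GAL.HK.Period
import Fermat.Agent.S21
import Fermat.Agent.S22.Gamma0FG

/-!
# GAL / HK4c : the lattice `L0 M = Hom_par(Γ₀(M), ℤ)`, its Hecke operators `T0 M ℓ`, and the
injective ring homomorphism from the Hecke algebra of `S₂(Γ₀(M))` (away from the level) to
`End_ℤ (L0 M)`.
-/

set_option autoImplicit false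

open CongruenceSubgroup ModularCurve ModularCurve.Period
open scoped MatrixGroups

namespace Fermat.Agent.GAL.HK

/-- `Hom_par(Γ₀(M), ℤ)` -/
abbrev L0 (M : ℕ) : Submodule ℤ (Additive (Gamma0 M) →+ ℤ) := parabolicHoms ℤ (Gamma0 M) ℤ

/-- the parabolic elements -/
def parSet (M : ℕ) : Set (Gamma0 M) :=
  {γ | ((γ : SL(2, ℤ)) : Matrix (Fin 2) (Fin 2) ℤ).trace ^ 2 = 4}

theorem isParabolicHom_iff {M : ℕ} {A : Type*} [AddCommGroup A] (φ : Additive (Gamma0 M) →+ A) :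
    IsParabolicHom (Gamma0 M) φ ↔ ∀ s ∈ parSet M, φ (Additive.ofMul s) = 0 := Iff.rfl

instance fg_Gamma0 (M : ℕ) [NeZero M] : Group.FG (Gamma0 M) :=
  (Group.fg_iff_subgroup_fg _).2 (S22.gamma0_fg M)

/-- A dual basis of `L0 M`. -/
theorem exists_dual_basis_L0 (M : ℕ) [NeZero M] :
    ∃ (r : ℕ) (P : Fin r → L0 M) (g : Fin r → Gamma0 M),
      (∀ i j, (P j : Additive (Gamma0 M) →+ ℤ) (Additive.ofMul (g i)) = if i = j then 1 else 0) ∧
      ∀ (A : Type) [AddCommGroup A] [IsAddTorsionFree A] (Q : Additive (Gamma0 M) →+ A),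
        IsParabolicHom (Gamma0 M) Q →
        ∀ γ : Gamma0 M, Q (Additive.ofMul γ) =
          ∑ j, (P j : Additive (Gamma0 M) →+ ℤ) (Additive.ofMul γ) • Q (Additive.ofMul (g j)) := by
  obtain ⟨r, P, g, h1, h2, h3⟩ := exists_dual_basis (Gamma0 M) (parSet M)
  exact ⟨r, fun j => ⟨P j, h1 j⟩, g, h2, fun A _ _ Q hQ => h3 A Q hQ⟩

/-- `L0 M ≃ ℤ^r`. -/
theorem exists_equiv_L0 (M : ℕ) [NeZero M] : ∃ r : ℕ, Nonempty (L0 M ≃ₗ[ℤ] (Fin r → ℤ)) := by
  obtain ⟨r, P, g, h2, h3⟩ := exists_dual_basis_L0 M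
  let F : L0 M →ₗ[ℤ] (Fin r → ℤ) :=
    { toFun := fun x i => (x : Additive (Gamma0 M) →+ ℤ) (Additive.ofMul (g i))
      map_add' := fun x y => rfl
      map_smul' := fun n x => rfl }
  refine ⟨r, ⟨LinearEquiv.ofBijective F ⟨?_, ?_⟩⟩⟩
  · intro x y hxy
    apply Subtype.ext
    refine AddMonoidHom.ext fun γ => ?_
    obtain ⟨γ, rfl⟩ := Additive.ofMul.surjective γ
    rw [h3 ℤ x.1 x.2 γ, h3 ℤ y.1 y.2 γ]
    refine Finset.sum_congr rfl fun j _ => ?_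
    exact congrArg _ (congrFun hxy j)
  · intro v
    refine ⟨∑ j, v j • P j, ?_⟩
    funext i
    show ((∑ j, v j • P j : L0 M) : Additive (Gamma0 M) →+ ℤ) (Additive.ofMul (g i)) = v i
    rw [Submodule.coe_sum, AddMonoidHom.finsetSum_apply]
    simp only [Submodule.coe_smul, AddMonoidHom.smul_apply, h2, smul_eq_mul, mul_ite, mul_one,
      mul_zero, Finset.sum_ite_eq, Finset.mem_univ, if_true]

instance free_L0 (M : ℕ) [NeZero M] : Module.Free ℤ (L0 M) := by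
  obtain ⟨r, ⟨e⟩⟩ := exists_equiv_L0 M
  exact Module.Free.of_equiv e.symm

instance finite_L0 (M : ℕ) [NeZero M] : Module.Finite ℤ (L0 M) := by
  obtain ⟨r, ⟨e⟩⟩ := exists_equiv_L0 M
  exact Module.Finite.equiv e.symm

open Classical in
/-- The Hecke operator `T_ℓ` on `L0 M` (junk value `0` unless `ℓ` is a prime not dividing `M`). -/
noncomputable def T0 (M : ℕ) [NeZero M] (ℓ : ℕ) : Module.End ℤ (L0 M) :=
  if h : ℓ.Prime ∧ ¬ ℓ ∣ M then
    { toFun := fun x => ⟨GAL.heckeCoh M ℓ (x : Additive (Gamma0 M) →+ ℤ),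
        GAL.heckeCoh_isParabolicHom M ℓ h.1 h.2 _ x.2⟩
      map_add' := fun _ _ => Subtype.ext (GAL.heckeCoh_add h.1 h.2 _ _)
      map_smul' := fun n _ => Subtype.ext (GAL.heckeCoh_smul h.1 h.2 n _) }
  else 0

theorem coe_T0 (M : ℕ) [NeZero M] {ℓ : ℕ} (hℓ : ℓ.Prime) (hℓM : ¬ ℓ ∣ M) (x : L0 M) :
    ((T0 M ℓ x : L0 M) : Additive (Gamma0 M) →+ ℤ) =
      GAL.heckeCoh M ℓ (x : Additive (Gamma0 M) →+ ℤ) := by
  unfold T0
  rw [dif_pos ⟨hℓ, hℓM⟩]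
  rfl

/-- `L0 M → Hom(Γ₀(M), ℂ)` -/
noncomputable def cL0 (M : ℕ) : L0 M →+ (Additive (Gamma0 M) →+ ℂ) where
  toFun x := (Int.castAddHom ℂ).comp (x : Additive (Gamma0 M) →+ ℤ)
  map_zero' := by
    refine AddMonoidHom.ext fun γ => ?_
    simp
  map_add' x y := by
    refine AddMonoidHom.ext fun γ => ?_
    simp

theorem cL0_apply (M : ℕ) (x : L0 M) (γ : Additive (Gamma0 M)) :
    cL0 M x γ = (((x : Additive (Gamma0 M) →+ ℤ) γ : ℤ) : ℂ) := rfl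

theorem cL0_injective (M : ℕ) : Function.Injective (cL0 M) := by
  intro x y hxy
  apply Subtype.ext
  refine AddMonoidHom.ext fun γ => ?_
  have := DFunLike.congr_fun hxy γ
  rw [cL0_apply, cL0_apply] at this
  exact_mod_cast this

theorem cL0_mem (M : ℕ) (x : L0 M) : cL0 M x ∈ parabolicHoms ℂ (Gamma0 M) ℂ := by
  intro γ hγ
  rw [cL0_apply, x.2 γ hγ, Int.cast_zero]

theorem parabolicHoms_le_span (M : ℕ) [NeZero M] :
    parabolicHoms ℂ (Gamma0 M) ℂ ≤ Submodule.span ℂ (Set.range (cL0 M)) := by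
  obtain ⟨r, P, g, -, h3⟩ := exists_dual_basis_L0 M
  intro Q hQ
  have : Q = ∑ j, Q (Additive.ofMul (g j)) • cL0 M (P j) := by
    refine AddMonoidHom.ext fun γ => ?_
    obtain ⟨γ, rfl⟩ := Additive.ofMul.surjective γ
    rw [h3 ℂ Q hQ γ, AddMonoidHom.finsetSum_apply]
    refine Finset.sum_congr rfl fun j _ => ?_
    rw [AddMonoidHom.smul_apply, cL0_apply, zsmul_eq_mul, smul_eq_mul, mul_comm]
  rw [this]
  exact Submodule.sum_mem _ fun j _ => Submodule.smul_mem _ _ (Submodule.subset_span ⟨_, rfl⟩)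

/-- `(T_ℓ, T0 ℓ)` is a related pair. -/
theorem opRel_heckeTLin (M : ℕ) [NeZero M] {ℓ : ℕ} (hℓ : ℓ.Prime) (hℓM : ¬ ℓ ∣ M) :
    OpRel (periodHomPair M) (cL0 M) (CuspForm.heckeTLin 2 hℓ hℓM) (T0 M ℓ) := by
  rintro ⟨f, g⟩ l hx
  have h1 : cL0 M (T0 M ℓ l) = cohT M hℓ hℓM ℂ (cL0 M l) := by
    show (Int.castAddHom ℂ).comp ((T0 M ℓ l : L0 M) : Additive (Gamma0 M) →+ ℤ) = _
    rw [coe_T0 M hℓ hℓM, ← GAL.heckeCoh_comp hℓ hℓM, heckeCoh_eq_cohT M hℓ hℓM]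
    rfl
  rw [h1, ← hx, S21.periodHomPair_apply, S21.periodHomPair_apply, periodMap_heckeTLin,
    periodMap_heckeTLin, map_add, map_add, map_sub, cohT_charInvolution, cohT_charInvolution]

/-- **HK4c.** -/
theorem exists_iota (M : ℕ) [NeZero M] (S : Set ℕ) (hS : ∀ q : ℕ, q.Prime → q ∣ M → q ∈ S) :
    ∃ ι : CuspForm.heckeAlgebra M 2 S →+* Module.End ℤ (L0 M), Function.Injective ι ∧
      ∀ (ℓ : ℕ) (hℓ : ℓ.Prime) (hℓM : ¬ ℓ ∣ M) (hℓS : ℓ ∉ S),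
        ι (CuspForm.heckeAlgebra.T hℓ hℓM hℓS) = T0 M ℓ := by
  obtain ⟨hinj, hrange⟩ := S21.result M
  have hsurj : ∀ l, ∃ x, periodHomPair M x = cL0 M l := fun l => by
    have : cL0 M l ∈ LinearMap.range (periodHomPair M) := by
      rw [hrange]; exact cL0_mem M l
    exact this
  have hspan : LinearMap.range (periodHomPair M) ≤ Submodule.span ℂ (Set.range (cL0 M)) := by
    rw [hrange]; exact parabolicHoms_le_span M
  obtain ⟨ι, hι, hrel⟩ := exists_ringHom_of_opRel hinj (cL0_injective M) hsurj hspan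
    (CuspForm.heckeGenerators M 2 S) (by
      rintro t (⟨ℓ, hℓ, hℓM, -, rfl⟩ | ⟨q, hqM, hq, hqS, rfl⟩)
      · exact ⟨_, opRel_heckeTLin M hℓ hℓM⟩
      · exact absurd (hS q hq hqM) hqS)
  refine ⟨ι, hι, fun ℓ hℓ hℓM hℓS => ?_⟩
  exact OpRel.unique_right (cL0_injective M) hsurj (hrel _) (opRel_heckeTLin M hℓ hℓM)

end Fermat.Agent.GAL.HK
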