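import Fermat.Agent.GAL.HK.HeckeAlg
import Fermat.Agent.GR.CB.Defs

/-!
# GAL / HK : the contract `HKInput M` of `GR/CB/Defs.lean`
-/

set_option autoImplicit false

namespace Fermat.Agent.GAL.HK

theorem hkInput (M : ℕ) [NeZero M] : Fermat.Agent.GR.CB.HKInput M where
  free := free_L0 M
  finite := finite_L0 M
  exists_ι := by
    obtain ⟨ι, h1, h2⟩ := exists_iota M (GR.Adic.badSet M) (fun q hq hqM => ⟨hq, hqM⟩)
    refine ⟨ι, h1, fun ℓ hℓ hℓM x => ?_⟩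
    rw [h2 ℓ hℓ hℓM, coe_T0 M hℓ hℓM]

end Fermat.Agent.GAL.HK
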