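import Fermat.Agent.GAL.HK.CohCore
import Fermat.Agent.GAL.HK.Bridge
import Fermat.Agent.GAL.HK.Parabolic
import Fermat.Agent.GAL.AN.Package

/-!
# GAL / HK : the lattice `Lat M = Hom_par(Γ₀(M), ℤ)`, its Hecke operators and its reductions
-/

set_option autoImplicit false

open ModularCurve ModularCurve.Period CongruenceSubgroup
open scoped MatrixGroups

namespace Fermat.Agent.GAL.HK

/-- The lattice `Hom_par(Γ₀(M), ℤ)`. -/
abbrev Lat (M : ℕ) : Submodule ℤ (Additive (Gamma0 M) →+ ℤ) := parabolicHoms ℤ (Gamma0 M) ℤ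

/-- coordinates of the lattice with respect to a `ParBasis`. -/
noncomputable def ParBasis.latEquiv {M : ℕ} (𝔅 : ParBasis M) : Lat M ≃ₗ[ℤ] (Fin 𝔅.r → ℤ) where
  toFun x := fun j => (x : Additive (Gamma0 M) →+ ℤ) (Additive.ofMul (𝔅.g j))
  map_add' x y := by funext j; simp
  map_smul' c x := by funext j; simp
  invFun c := ⟨comb 𝔅.P c, 𝔅.comb_par c⟩
  left_inv x := Subtype.ext (𝔅.exp ℤ _ x.2).symm
  right_inv c := by funext j; exact 𝔅.comb_g c j

instance Lat.instFree (M : ℕ) [NeZero M] : Module.Free ℤ (Lat M) := by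
  obtain ⟨𝔅⟩ := exists_parBasis M
  exact Module.Free.of_equiv 𝔅.latEquiv.symm

instance Lat.instFinite (M : ℕ) [NeZero M] : Module.Finite ℤ (Lat M) := by
  obtain ⟨𝔅⟩ := exists_parBasis M
  exact Module.Finite.equiv 𝔅.latEquiv.symm

/-- the operator induced on the lattice by a Hecke datum preserving parabolic homs. -/
noncomputable def latOp {M : ℕ} (D : HeckeDatum (Gamma0 M))
    (hD : ∀ P : Additive (Gamma0 M) →+ ℤ, IsParabolicHom (Gamma0 M) P →
      IsParabolicHom (Gamma0 M) (D.T ℤ P)) : Module.End ℤ (Lat M) :=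
  (D.Tlin ℤ ℤ).restrict (p := Lat M) (q := Lat M) fun x hx => hD x hx

/-- `T_ℓ` on the lattice. -/
noncomputable def latT (M : ℕ) {ℓ : ℕ} (hℓ : ℓ.Prime) (hℓM : ¬ ℓ ∣ M) : Module.End ℤ (Lat M) :=
  latOp (datumT M hℓ hℓM) fun P hP => cohT_isParabolicHom M hℓ hℓM P hP

/-- `U_q` on the lattice. -/
noncomputable def latU (M : ℕ) {q : ℕ} (hq : q.Prime) (hqM : q ∣ M) : Module.End ℤ (Lat M) :=
  latOp (datumU M hq hqM) fun P hP => cohU_isParabolicHom M hq hqM P hP

theorem coe_latT_apply (M : ℕ) {ℓ : ℕ} (hℓ : ℓ.Prime) (hℓM : ¬ ℓ ∣ M) (x : Lat M) :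
    (latT M hℓ hℓM x : Additive (Gamma0 M) →+ ℤ) = heckeCoh M ℓ (x : Additive (Gamma0 M) →+ ℤ) := by
  rw [heckeCoh_eq_cohT M hℓ hℓM]
  rfl

theorem coe_latU_apply (M : ℕ) {q : ℕ} (hq : q.Prime) (hqM : q ∣ M) (x : Lat M) :
    (latU M hq hqM x : Additive (Gamma0 M) →+ ℤ) = cohU M hq hqM ℤ (x : Additive (Gamma0 M) →+ ℤ) :=
  rfl

/-- reduction of the lattice modulo `n`. -/
noncomputable def latRed (M n : ℕ) : Lat M →ₗ[ℤ] HPar M n where
  toFun x := ⟨(Int.castAddHom (ZMod n)).comp (x : Additive (Gamma0 M) →+ ℤ), by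
    intro γ hγ
    have := x.2 γ hγ
    simp [this]⟩
  map_add' x y := by
    apply Subtype.ext
    refine AddMonoidHom.ext fun γ => ?_
    simp
  map_smul' c x := by
    apply Subtype.ext
    refine AddMonoidHom.ext fun γ => ?_
    simp

theorem coe_latRed (M n : ℕ) (x : Lat M) :
    (latRed M n x : Additive (Gamma0 M) →+ ZMod n) =
      (Int.castAddHom (ZMod n)).comp (x : Additive (Gamma0 M) →+ ℤ) := rfl

theorem latRed_apply (M n : ℕ) (x : Lat M) (γ : Additive (Gamma0 M)) :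
    (latRed M n x : Additive (Gamma0 M) →+ ZMod n) γ =
      (((x : Additive (Gamma0 M) →+ ℤ) γ : ℤ) : ZMod n) := rfl

/-- the kernel of the reduction modulo `n` is `n • Lat M`. -/
theorem latRed_eq_zero_iff (M n : ℕ) (x : Lat M) :
    latRed M n x = 0 ↔ ∃ y : Lat M, x = n • y := by
  constructor
  · intro h
    have hdvd : ∀ γ, (n : ℤ) ∣ (x : Additive (Gamma0 M) →+ ℤ) γ := by
      intro γ
      have := DFunLike.congr_fun (congrArg Subtype.val h) γ
      rw [latRed_apply] at this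
      exact (ZMod.intCast_zmod_eq_zero_iff_dvd _ _).mp this
    let y : Additive (Gamma0 M) →+ ℤ := AddMonoidHom.mk' (fun γ => (x : Additive (Gamma0 M) →+ ℤ) γ / n)
      (by
        intro a b
        rw [map_add, Int.add_ediv_of_dvd_left (hdvd a)])
    refine ⟨⟨y, ?_⟩, ?_⟩
    · intro γ hγ
      have := x.2 γ hγ
      simp [y, this]
    · apply Subtype.ext
      refine AddMonoidHom.ext fun γ => ?_
      exact (Int.mul_ediv_cancel' (hdvd γ)).symm
  · rintro ⟨y, rfl⟩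
    apply Subtype.ext
    refine AddMonoidHom.ext fun γ => ?_
    rw [latRed_apply]
    simp

/-- the reduction is Hecke equivariant. -/
theorem latRed_latT (M n : ℕ) {ℓ : ℕ} (hℓ : ℓ.Prime) (hℓM : ¬ ℓ ∣ M) (x : Lat M) :
    (latRed M n (latT M hℓ hℓM x) : Additive (Gamma0 M) →+ ZMod n) =
      heckeCoh M ℓ (latRed M n x : Additive (Gamma0 M) →+ ZMod n) := by
  rw [coe_latRed, coe_latRed, coe_latT_apply, heckeCoh_comp hℓ hℓM]

/-- compatibility of the reductions. -/
theorem castHom_comp_latRed (M : ℕ) {n n' : ℕ} (h : n ∣ n') (x : Lat M) :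
    ((ZMod.castHom h (ZMod n)) : ZMod n' →+ ZMod n).comp
      (latRed M n' x : Additive (Gamma0 M) →+ ZMod n') =
      (latRed M n x : Additive (Gamma0 M) →+ ZMod n) := by
  refine AddMonoidHom.ext fun γ => ?_
  simp [latRed_apply]

/-- the reduction in coordinates. -/
theorem latRed_comb {M : ℕ} (𝔅 : ParBasis M) (n : ℕ) (c : Fin 𝔅.r → ℤ) :
    (latRed M n ⟨comb 𝔅.P c, 𝔅.comb_par c⟩ : Additive (Gamma0 M) →+ ZMod n) =
      comb 𝔅.P fun j => ((c j : ℤ) : ZMod n) := by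
  refine AddMonoidHom.ext fun γ => ?_
  rw [latRed_apply, comb_apply, comb_apply]
  simp

end Fermat.Agent.GAL.HK
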