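import Fermat.Agent.S21
import Fermat.Agent.GAL.HK.Lat
import Fermat.Agent.GAL.HK.Period

/-!
# GAL / HK4c : the Hecke algebra acts faithfully on the lattice `Hom_par(Γ₀(M), ℤ)`
-/

set_option autoImplicit false

open ModularCurve ModularCurve.Period CongruenceSubgroup
open scoped MatrixGroups

namespace Fermat.Agent.GAL.HK

/-- the lattice inside `Hom(Γ₀(M), ℂ)`. -/
noncomputable def latC (M : ℕ) (x : Lat M) : Additive (Gamma0 M) →+ ℂ :=
  (Int.castAddHom ℂ).comp (x : Additive (Gamma0 M) →+ ℤ)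

theorem latC_injective (M : ℕ) : Function.Injective (latC M) := by
  intro x y h
  apply Subtype.ext
  refine AddMonoidHom.ext fun γ => ?_
  have := DFunLike.congr_fun h γ
  simpa [latC] using this

/-- The compatibility relation between `t ∈ End(S₂)` and `s ∈ End(Lat)`. -/
def IotaRel (M : ℕ) (t : Module.End ℂ (CuspForm (Gamma0 M) 2)) (s : Module.End ℤ (Lat M)) : Prop :=
  ∀ (f g : CuspForm (Gamma0 M) 2) (x : Lat M), periodHomPair M (f, g) = latC M x →
    periodHomPair M (t f, t g) = latC M (s x)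

theorem latC_add (M : ℕ) (x y : Lat M) : latC M (x + y) = latC M x + latC M y := by
  refine AddMonoidHom.ext fun γ => ?_
  simp [latC]

theorem latC_zsmul (M : ℕ) (n : ℤ) (x : Lat M) : latC M (n • x) = (n : ℂ) • latC M x := by
  refine AddMonoidHom.ext fun γ => ?_
  simp [latC]

theorem latC_zero (M : ℕ) : latC M 0 = 0 := by
  refine AddMonoidHom.ext fun γ => ?_
  simp [latC]

theorem latC_par (M : ℕ) (x : Lat M) : latC M x ∈ parabolicHoms ℂ (Gamma0 M) ℂ := by
  intro γ hγ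
  have := x.2 γ hγ
  simp [latC, this]

namespace IotaRel

variable {M : ℕ}

theorem one : IotaRel M 1 1 := fun _ _ _ h => h

theorem mul {t t' : Module.End ℂ (CuspForm (Gamma0 M) 2)} {s s' : Module.End ℤ (Lat M)}
    (h : IotaRel M t s) (h' : IotaRel M t' s') : IotaRel M (t * t') (s * s') :=
  fun f g x hx => h _ _ _ (h' f g x hx)

theorem add {t t' : Module.End ℂ (CuspForm (Gamma0 M) 2)} {s s' : Module.End ℤ (Lat M)}
    (h : IotaRel M t s) (h' : IotaRel M t' s') : IotaRel M (t + t') (s + s') := by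
  intro f g x hx
  have h1 := h f g x hx
  have h2 := h' f g x hx
  have : ((t + t') f, (t + t') g) = (t f, t g) + (t' f, t' g) := rfl
  rw [this, map_add, h1, h2, LinearMap.add_apply, latC_add]

theorem algMap (n : ℤ) :
    IotaRel M (algebraMap ℤ (Module.End ℂ (CuspForm (Gamma0 M) 2)) n)
      (algebraMap ℤ (Module.End ℤ (Lat M)) n) := by
  intro f g x hx
  have h1 : ((algebraMap ℤ (Module.End ℂ (CuspForm (Gamma0 M) 2)) n) f,
      (algebraMap ℤ (Module.End ℂ (CuspForm (Gamma0 M) 2)) n) g) = (n : ℂ) • (f, g) := by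
    simp only [Module.algebraMap_end_apply, Prod.smul_mk, Int.cast_smul_eq_zsmul]
  have h2 : (algebraMap ℤ (Module.End ℤ (Lat M)) n) x = n • x := by
    simp
  rw [h1, h2, map_smul, hx, latC_zsmul]

theorem zero : IotaRel M 0 0 := by
  intro f g x _
  have : ((0 : Module.End ℂ (CuspForm (Gamma0 M) 2)) f,
      (0 : Module.End ℂ (CuspForm (Gamma0 M) 2)) g) = 0 := rfl
  rw [this, map_zero, LinearMap.zero_apply, latC_zero]

theorem unique [NeZero M] {t : Module.End ℂ (CuspForm (Gamma0 M) 2)} {s s' : Module.End ℤ (Lat M)}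
    (h : IotaRel M t s) (h' : IotaRel M t s') : s = s' := by
  refine LinearMap.ext fun x => ?_
  have hx : latC M x ∈ LinearMap.range (periodHomPair M) := by
    rw [(Fermat.Agent.S21.result M).2]
    exact latC_par M x
  obtain ⟨⟨f, g⟩, hfg⟩ := hx
  exact latC_injective M ((h f g x hfg).symm.trans (h' f g x hfg))

theorem eq_zero [NeZero M] {t : Module.End ℂ (CuspForm (Gamma0 M) 2)} (h : IotaRel M t 0) :
    t = 0 := by
  obtain ⟨𝔅⟩ := exists_parBasis M
  have hinj := (Fermat.Agent.S21.result M).1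
  have hrange := (Fermat.Agent.S21.result M).2
  -- preimages of the basis
  have hpre : ∀ j, ∃ fg : CuspForm (Gamma0 M) 2 × CuspForm (Gamma0 M) 2,
      periodHomPair M fg = latC M ⟨𝔅.P j, 𝔅.par j⟩ := by
    intro j
    have : latC M ⟨𝔅.P j, 𝔅.par j⟩ ∈ LinearMap.range (periodHomPair M) := by
      rw [hrange]; exact latC_par M _
    exact this
  choose fg hfg using hpre
  have hkill : ∀ j, t (fg j).1 = 0 ∧ t (fg j).2 = 0 := by
    intro j
    have h1 := h (fg j).1 (fg j).2 ⟨𝔅.P j, 𝔅.par j⟩ (hfg j)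
    rw [LinearMap.zero_apply, latC_zero, ← map_zero (periodHomPair M)] at h1
    have h2 := hinj h1
    exact ⟨congrArg Prod.fst h2, congrArg Prod.snd h2⟩
  refine LinearMap.ext fun f => ?_
  -- expand `P(f, 0)`
  set Q := periodHomPair M (f, 0) with hQ
  have hQpar : IsParabolicHom (Gamma0 M) Q := by
    have : Q ∈ LinearMap.range (periodHomPair M) := ⟨_, rfl⟩
    rw [hrange] at this
    exact this
  have hexp := 𝔅.exp ℂ Q hQpar
  have hsum : Q = periodHomPair M (∑ j, Q (Additive.ofMul (𝔅.g j)) • fg j) := by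
    rw [map_sum]
    simp only [map_smul, hfg]
    conv_lhs => rw [hexp]
    refine AddMonoidHom.ext fun γ => ?_
    rw [comb_apply]
    simp [latC, mul_comm]
  have h3 := hinj (hQ.symm.trans hsum)
  have h4 : f = ∑ j, Q (Additive.ofMul (𝔅.g j)) • (fg j).1 := by
    have := congrArg Prod.fst h3
    simpa [Prod.fst_sum] using this
  rw [h4, map_sum]
  simp [(hkill _).1]

end IotaRel

theorem iotaRel_of_datum {M : ℕ} [NeZero M] (t : Module.End ℂ (CuspForm (Gamma0 M) 2))
    (D : HeckeDatum (Gamma0 M))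
    (hD : ∀ P : Additive (Gamma0 M) →+ ℤ, IsParabolicHom (Gamma0 M) P →
      IsParabolicHom (Gamma0 M) (D.T ℤ P))
    (hper : ∀ f, periodMap M (t f) = D.T ℂ (periodMap M f))
    (hinv : ∀ φ : Additive (Gamma0 M) →+ ℂ,
      D.T ℂ (charInvolution M ℂ ℂ φ) = charInvolution M ℂ ℂ (D.T ℂ φ)) :
    IotaRel M t (latOp D hD) := by
  intro f g x hx
  have h1 : periodHomPair M (t f, t g) = D.T ℂ (periodHomPair M (f, g)) := by
    rw [Fermat.Agent.S21.periodHomPair_apply, Fermat.Agent.S21.periodHomPair_apply]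
    simp only [map_add, map_sub, hper, hinv]
  rw [h1, hx]
  exact D.T_comp (Int.castAddHom ℂ) (x : Additive (Gamma0 M) →+ ℤ)

theorem iotaRel_T (M : ℕ) [NeZero M] {ℓ : ℕ} (hℓ : ℓ.Prime) (hℓM : ¬ ℓ ∣ M) :
    IotaRel M (CuspForm.heckeTLin 2 hℓ hℓM) (latT M hℓ hℓM) :=
  iotaRel_of_datum _ _ _ (fun f => periodMap_heckeTLin hℓ hℓM f)
    (fun φ => cohT_charInvolution M hℓ hℓM ℂ ℂ φ)

theorem iotaRel_U (M : ℕ) [NeZero M] {q : ℕ} (hq : q.Prime) (hqM : q ∣ M) :
    IotaRel M (CuspForm.heckeULin 2 hqM) (latU M hq hqM) :=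
  iotaRel_of_datum _ _ _ (fun f => periodMap_heckeULin hq hqM f)
    (fun φ => cohU_charInvolution M hq hqM ℂ ℂ φ)

theorem exists_iotaRel (M : ℕ) [NeZero M] (S : Set ℕ) (t : CuspForm.heckeAlgebra M 2 S) :
    ∃ s : Module.End ℤ (Lat M), IotaRel M (t : Module.End ℂ (CuspForm (Gamma0 M) 2)) s := by
  obtain ⟨t, ht⟩ := t
  simp only
  induction ht using Algebra.adjoin_induction with
  | mem t ht =>
    rcases ht with ⟨ℓ, hℓ, hℓN, -, rfl⟩ | ⟨q, hqN, hq, -, rfl⟩
    · exact ⟨_, iotaRel_T M hℓ hℓN⟩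
    · exact ⟨_, iotaRel_U M hq hqN⟩
  | algebraMap n => exact ⟨_, IotaRel.algMap n⟩
  | add t t' _ _ h h' =>
    obtain ⟨s, hs⟩ := h
    obtain ⟨s', hs'⟩ := h'
    exact ⟨_, hs.add hs'⟩
  | mul t t' _ _ h h' =>
    obtain ⟨s, hs⟩ := h
    obtain ⟨s', hs'⟩ := h'
    exact ⟨_, hs.mul hs'⟩

/-- **HK4c.** The Hecke algebra of level `M` acts on `Hom_par(Γ₀(M), ℤ)`. -/
noncomputable def iota (M : ℕ) [NeZero M] (S : Set ℕ) :
    CuspForm.heckeAlgebra M 2 S →+* Module.End ℤ (Lat M) where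
  toFun t := (exists_iotaRel M S t).choose
  map_one' := (exists_iotaRel M S 1).choose_spec.unique IotaRel.one
  map_mul' t t' := (exists_iotaRel M S (t * t')).choose_spec.unique
    ((exists_iotaRel M S t).choose_spec.mul (exists_iotaRel M S t').choose_spec)
  map_zero' := (exists_iotaRel M S 0).choose_spec.unique IotaRel.zero
  map_add' t t' := (exists_iotaRel M S (t + t')).choose_spec.unique
    ((exists_iotaRel M S t).choose_spec.add (exists_iotaRel M S t').choose_spec)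

theorem iota_spec (M : ℕ) [NeZero M] (S : Set ℕ) (t : CuspForm.heckeAlgebra M 2 S) :
    IotaRel M (t : Module.End ℂ (CuspForm (Gamma0 M) 2)) (iota M S t) :=
  (exists_iotaRel M S t).choose_spec

theorem iota_injective (M : ℕ) [NeZero M] (S : Set ℕ) : Function.Injective (iota M S) := by
  rw [injective_iff_map_eq_zero]
  intro t ht
  have h := iota_spec M S t
  rw [ht] at h
  exact Subtype.ext h.eq_zero

theorem iota_T (M : ℕ) [NeZero M] (S : Set ℕ) {ℓ : ℕ} (hℓ : ℓ.Prime) (hℓM : ¬ ℓ ∣ M)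
    (hℓS : ℓ ∉ S) : iota M S (CuspForm.heckeAlgebra.T hℓ hℓM hℓS) = latT M hℓ hℓM :=
  (iota_spec M S _).unique (iotaRel_T M hℓ hℓM)

theorem iota_U (M : ℕ) [NeZero M] (S : Set ℕ) {q : ℕ} (hq : q.Prime) (hqM : q ∣ M)
    (hqS : q ∉ S) : iota M S (CuspForm.heckeAlgebra.U hq hqM hqS) = latU M hq hqM :=
  (iota_spec M S _).unique (iotaRel_U M hq hqM)

end Fermat.Agent.GAL.HK
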