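import Mathlib

/-!
# GAL / HK : transport of an algebra of operators along a "period isomorphism"

`Φ : V × V → H` an injective `K`-linear map, `c : Λ → H` an injective additive map whose image lies
in the range of `Φ` and spans it.  An operator `t` on `V` and an operator `τ` on `Λ` are *related* if
`Φ ∘ (t × t)` and `c ∘ τ` agree on `Φ x = c l`.  The relation is a subring of the product which is the
graph of an injective map in both directions.
-/

set_option autoImplicit false

namespace Fermat.Agent.GAL.HK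

section

variable {K V H Λ : Type*} [Field K] [AddCommGroup V] [Module K V] [AddCommGroup H] [Module K H]
  [AddCommGroup Λ] (Φ : V × V →ₗ[K] H) (c : Λ →+ H)

/-- `t` and `τ` correspond to each other. -/
def OpRel (t : Module.End K V) (τ : Module.End ℤ Λ) : Prop :=
  ∀ (x : V × V) (l : Λ), Φ x = c l → Φ (t x.1, t x.2) = c (τ l)

variable {Φ c}

theorem OpRel.one : OpRel Φ c 1 1 := fun _ _ h => h

theorem OpRel.add {t t' : Module.End K V} {τ τ' : Module.End ℤ Λ} (h : OpRel Φ c t τ)
    (h' : OpRel Φ c t' τ') : OpRel Φ c (t + t') (τ + τ') := by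
  intro x l hx
  have e : (((t + t') x.1, (t + t') x.2) : V × V) = (t x.1, t x.2) + (t' x.1, t' x.2) := rfl
  rw [e, map_add, h x l hx, h' x l hx, LinearMap.add_apply, map_add]

theorem OpRel.mul {t t' : Module.End K V} {τ τ' : Module.End ℤ Λ} (h : OpRel Φ c t τ)
    (h' : OpRel Φ c t' τ') : OpRel Φ c (t * t') (τ * τ') := by
  intro x l hx
  exact h (t' x.1, t' x.2) (τ' l) (h' x l hx)

theorem OpRel.algMap (n : ℤ) :
    OpRel Φ c (algebraMap ℤ (Module.End K V) n) (algebraMap ℤ (Module.End ℤ Λ) n) := by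
  intro x l hx
  have e : ((algebraMap ℤ (Module.End K V) n x.1, algebraMap ℤ (Module.End K V) n x.2) : V × V)
      = n • x := by
    simp
    rfl
  rw [e, map_zsmul, hx, Module.algebraMap_end_apply, map_zsmul]

theorem OpRel.unique_right (hc : Function.Injective c) (hsurj : ∀ l, ∃ x, Φ x = c l)
    {t : Module.End K V} {τ τ' : Module.End ℤ Λ} (h : OpRel Φ c t τ) (h' : OpRel Φ c t τ') :
    τ = τ' := by
  refine LinearMap.ext fun l => hc ?_
  obtain ⟨x, hx⟩ := hsurj l
  rw [← h x l hx, ← h' x l hx]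

theorem OpRel.unique_left (hΦ : Function.Injective Φ) (hsurj : ∀ l, ∃ x, Φ x = c l)
    (hspan : LinearMap.range Φ ≤ Submodule.span K (Set.range c))
    {t t' : Module.End K V} {τ : Module.End ℤ Λ} (h : OpRel Φ c t τ) (h' : OpRel Φ c t' τ) :
    t = t' := by
  have h1 : ∀ x : V × V, (∃ l, Φ x = c l) → t.prodMap t x = t'.prodMap t' x := by
    rintro x ⟨l, hx⟩
    apply hΦ
    exact (h x l hx).trans (h' x l hx).symm
  have h2 : Submodule.span K {x : V × V | ∃ l, Φ x = c l} = ⊤ := by
    rw [eq_top_iff]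
    intro x _
    have hx : Φ x ∈ Submodule.span K (Set.range c) := hspan ⟨x, rfl⟩
    have hle : Submodule.span K (Set.range c) ≤
        (Submodule.span K {x : V × V | ∃ l, Φ x = c l}).map Φ := by
      rw [Submodule.span_le]
      rintro _ ⟨l, rfl⟩
      obtain ⟨y, hy⟩ := hsurj l
      exact ⟨y, Submodule.subset_span ⟨l, hy⟩, hy⟩
    obtain ⟨y, hy, hyx⟩ := hle hx
    rw [← hΦ hyx]
    exact hy
  have h3 : t.prodMap t = t'.prodMap t' := by
    apply LinearMap.ext_on h2
    intro x hx
    exact h1 x hx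
  refine LinearMap.ext fun v => ?_
  have := congrArg Prod.fst (LinearMap.congr_fun h3 (v, 0))
  simpa using this

/-- **Transport.** -/
theorem exists_ringHom_of_opRel (hΦ : Function.Injective Φ) (hc : Function.Injective c)
    (hsurj : ∀ l, ∃ x, Φ x = c l)
    (hspan : LinearMap.range Φ ≤ Submodule.span K (Set.range c))
    (G : Set (Module.End K V)) (hG : ∀ t ∈ G, ∃ τ, OpRel Φ c t τ) :
    ∃ ι : Algebra.adjoin ℤ G →+* Module.End ℤ Λ, Function.Injective ι ∧
      ∀ t : Algebra.adjoin ℤ G, OpRel Φ c (t : Module.End K V) (ι t) := by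
  have hex : ∀ t ∈ Algebra.adjoin ℤ G, ∃ τ, OpRel Φ c t τ := by
    intro t ht
    induction ht using Algebra.adjoin_induction with
    | mem t ht => exact hG t ht
    | algebraMap n => exact ⟨_, OpRel.algMap n⟩
    | add t t' _ _ h h' =>
      obtain ⟨τ, h⟩ := h
      obtain ⟨τ', h'⟩ := h'
      exact ⟨_, h.add h'⟩
    | mul t t' _ _ h h' =>
      obtain ⟨τ, h⟩ := h
      obtain ⟨τ', h'⟩ := h'
      exact ⟨_, h.mul h'⟩
  choose f hf using hex
  have huniq := @OpRel.unique_right K V H Λ _ _ _ _ _ _ Φ c hc hsurj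
  refine ⟨{ toFun := fun t => f t.1 t.2
            map_one' := huniq (hf _ _) OpRel.one
            map_mul' := fun a b => huniq (hf _ _) ((hf _ a.2).mul (hf _ b.2))
            map_zero' := huniq (hf _ _) (by simpa using OpRel.algMap (Φ := Φ) (c := c) 0)
            map_add' := fun a b => huniq (hf _ _) ((hf _ a.2).add (hf _ b.2)) }, ?_, ?_⟩
  · intro a b hab
    apply Subtype.ext
    have ha := hf a.1 a.2
    have hb := hf b.1 b.2
    have hab' : f a.1 a.2 = f b.1 b.2 := hab
    rw [hab'] at ha
    exact OpRel.unique_left hΦ hsurj hspan ha hb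
  · intro t
    exact hf t.1 t.2

end

end Fermat.Agent.GAL.HK
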